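/-
Cluster T (bad reduction at `q ∥ N`), foundation (helper84): the Atkin–Lehner involution `w_Q`
of the function field of `X₀(N)` over `ℚ̄`, part 2: the algebra `B_N = ℚ̄[j_d : d ∣ N]` of functions
on `ℍ`, its expansion at `∞` (in `q`), and the automorphism `f ↦ f ∘ W` of `B_N`.
-/
import Mathlib
import Fermat.Prelude.Def_ModularCurve_ArithmeticGalois
import Fermat.Prelude.Def_ModularCurve_X0ModL
import Fermat.Agent.S24.GensExp
import Fermat.Agent.Lib.BadRed.ALFun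

set_option autoImplicit false
set_option linter.unusedVariables false
set_option linter.style.haveILetI false

noncomputable section

namespace Fermat.Agent.AtkinLehner

open UpperHalfPlane Fermat.Agent.S24 ModularCurve
open scoped MatrixGroups

/-! ### the algebra `B_N` and its expansion -/

/-- the functions `j_d`, `d ∣ N`. -/
def funGens (N : ℕ) : Set Fun := {f | ∃ (d : ℕ) (_ : NeZero d), d ∣ N ∧ f = jd d}

/-- the algebra `ℚ̄[j_d : d ∣ N]` of functions on the upper half plane. -/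
def BN (N : ℕ) : Subalgebra Kbar Fun := Algebra.adjoin Kbar (funGens N)

theorem jd_mem_BN {N d : ℕ} [NeZero d] (hd : d ∣ N) : jd d ∈ BN N :=
  Algebra.subset_adjoin ⟨d, ‹_›, hd, rfl⟩

/-- the `q`-expansion of `j_d` is `j(q^d)`. -/
theorem hasExp_one_jd (d : ℕ) [NeZero d] :
    HasExp 1 (jd d) (qExpand Kbar d (jqModC Kbar)) := by
  have hd0 : 0 < d := Nat.pos_of_ne_zero (NeZero.ne d)
  rw [GensExp.qExpand_jqModC]
  have hφ : ∀ τ : ℍ, uParam 1 (scale d τ) = iota 1 * uParam 1 τ ^ d := by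
    intro τ
    rw [uParam_one_scale 1 d τ, map_one, one_mul, one_mul]
  exact GensExp.hasExp_subst hasPExp_jFun (scale d) 1 GensExp.iota_one_norm d hd0 hφ

theorem exists_hasExp_of_mem_BN (N : ℕ) {f : Fun} (hf : f ∈ BN N) :
    ∃ a : LaurentSeries Kbar, HasExp 1 f a := by
  induction hf using Algebra.adjoin_induction with
  | mem x hx =>
    obtain ⟨d, hd, -, rfl⟩ := hx
    exact ⟨_, hasExp_one_jd d⟩
  | algebraMap c => exact ⟨_, HasExp.algebraMap 1 c⟩
  | add x y _ _ hx hy =>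
    obtain ⟨a, ha⟩ := hx
    obtain ⟨b, hb⟩ := hy
    exact ⟨a + b, ha.add hb⟩
  | mul x y _ _ hx hy =>
    obtain ⟨a, ha⟩ := hx
    obtain ⟨b, hb⟩ := hy
    exact ⟨a * b, ha.mul hb⟩

/-- the `q`-expansion of an element of `B_N`. -/
def expBFun (N : ℕ) (f : BN N) : LaurentSeries Kbar :=
  (exists_hasExp_of_mem_BN N f.2).choose

theorem hasExp_expBFun (N : ℕ) (f : BN N) : HasExp 1 (f : Fun) (expBFun N f) :=
  (exists_hasExp_of_mem_BN N f.2).choose_spec

theorem expBFun_eq (N : ℕ) (f : BN N) {a : LaurentSeries Kbar}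
    (h : HasExp 1 (f : Fun) a) : expBFun N f = a :=
  (hasExp_expBFun N f).unique h

/-- the `q`-expansion as an algebra homomorphism. -/
def expB (N : ℕ) : BN N →ₐ[Kbar] LaurentSeries Kbar where
  toFun := expBFun N
  map_one' := by
    apply expBFun_eq
    have h := HasExp.algebraMap 1 (1 : Kbar)
    rwa [map_one, map_one] at h
  map_mul' f g := expBFun_eq N _ ((hasExp_expBFun N f).mul (hasExp_expBFun N g))
  map_zero' := by
    apply expBFun_eq
    have h := HasExp.algebraMap 1 (0 : Kbar)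
    rwa [map_zero, map_zero] at h
  map_add' f g := expBFun_eq N _ ((hasExp_expBFun N f).add (hasExp_expBFun N g))
  commutes' c := expBFun_eq N _ (HasExp.algebraMap 1 c)

theorem hasExp_expB (N : ℕ) (f : BN N) : HasExp 1 (f : Fun) (expB N f) :=
  hasExp_expBFun N f

theorem expB_eq (N : ℕ) (f : BN N) {a : LaurentSeries Kbar}
    (h : HasExp 1 (f : Fun) a) : expB N f = a :=
  expBFun_eq N f h

theorem expB_injective (N : ℕ) : Function.Injective (expB N) := by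
  intro f g h
  apply Subtype.ext
  have hf := hasExp_expB N f
  have hg := hasExp_expB N g
  rw [h] at hf
  exact hf.fun_unique hg

instance instIsDomainBN (N : ℕ) : IsDomain (BN N) :=
  (expB_injective N).isDomain (expB N).toRingHom

/-- `j_d` as an element of `B_N`. -/
def jdB (N d : ℕ) [NeZero d] (hd : d ∣ N) : BN N := ⟨jd d, jd_mem_BN hd⟩

theorem expB_jdB (N d : ℕ) [NeZero d] (hd : d ∣ N) :
    expB N (jdB N d hd) = qExpand Kbar d (jqModC Kbar) :=
  expB_eq N _ (hasExp_one_jd d)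

/-- the Laurent series `j(q^d)`, `d ∣ N`. -/
def serGens (N : ℕ) : Set (LaurentSeries Kbar) :=
  {x | ∃ (d : ℕ) (_ : NeZero d), d ∣ N ∧ x = qExpand Kbar d (jqModC Kbar)}

theorem range_expB (N : ℕ) : (expB N).range = Algebra.adjoin Kbar (serGens N) := by
  have h1 : (expB N).range = (⊤ : Subalgebra Kbar (BN N)).map (expB N) := by
    rw [Algebra.map_top]
  have h2 : (⊤ : Subalgebra Kbar (BN N)) =
      Algebra.adjoin Kbar (((↑) : BN N → Fun) ⁻¹' funGens N) :=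
    (Algebra.adjoin_adjoin_coe_preimage).symm
  rw [h1, h2, AlgHom.map_adjoin]
  congr 1
  ext x
  constructor
  · rintro ⟨f, ⟨d, hd, hdN, hf⟩, rfl⟩
    refine ⟨d, hd, hdN, ?_⟩
    have : f = jdB N d hdN := Subtype.ext hf
    rw [this, expB_jdB]
  · rintro ⟨d, hd, hdN, rfl⟩
    exact ⟨jdB N d hdN, ⟨d, hd, hdN, rfl⟩, expB_jdB N d hdN⟩

/-! ### the Prelude's function field is generated by the `j(q^d)` over `ℚ̄` -/

theorem coeffEmb_qExpand_jq (d : ℕ) [NeZero d] :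
    coeffEmb Kbar (qExpand ℚ d jq) = qExpand Kbar d (jqModC Kbar) := by
  unfold coeffEmb
  rw [coeffMap_qExpand, ← jqModC_rat, coeffMap_jqModC]

theorem coeffEmb_mem_adjoin_serGens (N : ℕ) {x : LaurentSeries ℚ}
    (hx : x ∈ modularFunctionFieldFull N) :
    coeffEmb Kbar x ∈ IntermediateField.adjoin Kbar (serGens N) := by
  unfold modularFunctionFieldFull at hx
  induction hx using IntermediateField.adjoin_induction with
  | mem x hx =>
    obtain ⟨d, hdne, hd, rfl⟩ := hx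
    rw [coeffEmb_qExpand_jq]
    exact IntermediateField.subset_adjoin Kbar _ ⟨d, hdne, hd, rfl⟩
  | algebraMap c =>
    have h1 : coeffEmb Kbar (algebraMap ℚ (LaurentSeries ℚ) c) =
        ((c : ℚ) : LaurentSeries Kbar) := by
      rw [eq_ratCast, map_ratCast]
    rw [h1]
    exact SubfieldClass.ratCast_mem _ c
  | add x y _ _ hx hy =>
    rw [map_add]
    exact add_mem hx hy
  | inv x _ hx =>
    rw [map_inv₀]
    exact inv_mem hx
  | mul x y _ _ hx hy =>
    rw [map_mul]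
    exact mul_mem hx hy

theorem modularFunctionFieldBar_eq_adjoin (N : ℕ) :
    modularFunctionFieldBar N = IntermediateField.adjoin Kbar (serGens N) := by
  apply le_antisymm
  · unfold modularFunctionFieldBar laurentBaseChange
    rw [IntermediateField.adjoin_le_iff]
    rintro _ ⟨x, hx, rfl⟩
    exact coeffEmb_mem_adjoin_serGens N hx
  · rw [IntermediateField.adjoin_le_iff]
    rintro _ ⟨d, hdne, hd, rfl⟩
    rw [← coeffEmb_qExpand_jq]
    exact coeffEmb_mem_laurentBaseChange Kbar (jqd_mem_full N hd)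

/-! ### composition with `W` -/

/-- `f ↦ f ∘ W` on all functions. -/
def compW (D : ALData) : Fun →ₐ[Kbar] Fun where
  toFun f := fun τ => f (D.W τ)
  map_one' := rfl
  map_mul' _ _ := rfl
  map_zero' := rfl
  map_add' _ _ := rfl
  commutes' _ := rfl

theorem compW_apply (D : ALData) (f : Fun) (τ : ℍ) : compW D f τ = f (D.W τ) := rfl

/-- every divisor of `Q R` is `d₁ d₂` with `d₁ e₁ = Q`, `d₂ f₂ = R`. -/
theorem exists_factor (D : ALData) {d : ℕ} (hd : d ∣ D.Q * D.R) :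
    ∃ d₁ e₁ d₂ f₂ : ℕ, d₁ * e₁ = D.Q ∧ d₂ * f₂ = D.R ∧ d = d₁ * d₂ := by
  obtain ⟨d₁, d₂, ⟨e₁, h1⟩, ⟨f₂, h2⟩, rfl⟩ := exists_dvd_and_dvd_of_dvd_mul hd
  exact ⟨d₁, e₁, d₂, f₂, h1.symm, h2.symm, rfl⟩

theorem factor_pos (D : ALData) {d₁ e₁ d₂ f₂ : ℕ} (h1 : d₁ * e₁ = D.Q) (h2 : d₂ * f₂ = D.R) :
    0 < d₁ ∧ 0 < e₁ ∧ 0 < d₂ ∧ 0 < f₂ := by
  have hQ := D.hQ
  have hR := D.hR
  rw [← h1] at hQ
  rw [← h2] at hR
  exact ⟨Nat.pos_of_mul_pos_right hQ, Nat.pos_of_mul_pos_left hQ,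
    Nat.pos_of_mul_pos_right hR, Nat.pos_of_mul_pos_left hR⟩

theorem compW_jd (D : ALData) (d₁ e₁ d₂ f₂ : ℕ) [NeZero (d₁ * d₂)] [NeZero (e₁ * d₂)]
    (h1 : d₁ * e₁ = D.Q) (h2 : d₂ * f₂ = D.R) :
    compW D (jd (d₁ * d₂)) = jd (e₁ * d₂) := by
  ext τ
  exact D.jd_W d₁ e₁ d₂ f₂ h1 h2 τ

theorem compW_mem_BN (D : ALData) {f : Fun} (hf : f ∈ BN (D.Q * D.R)) :
    compW D f ∈ BN (D.Q * D.R) := by
  induction hf using Algebra.adjoin_induction with
  | mem x hx =>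
    obtain ⟨d, hdne, hd, rfl⟩ := hx
    obtain ⟨d₁, e₁, d₂, f₂, h1, h2, rfl⟩ := exists_factor D hd
    obtain ⟨p1, p2, p3, p4⟩ := factor_pos D h1 h2
    haveI : NeZero (e₁ * d₂) := ⟨(Nat.mul_pos p2 p3).ne'⟩
    rw [compW_jd D d₁ e₁ d₂ f₂ h1 h2]
    refine jd_mem_BN ?_
    rw [← h1, ← h2]
    exact Nat.mul_dvd_mul (Dvd.intro_left d₁ rfl) (Dvd.intro f₂ rfl)
  | algebraMap c =>
    rw [AlgHom.commutes]
    exact Subalgebra.algebraMap_mem _ c
  | add x y _ _ hx hy =>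
    rw [map_add]
    exact add_mem hx hy
  | mul x y _ _ hx hy =>
    rw [map_mul]
    exact mul_mem hx hy

theorem compW_compW (D : ALData) {f : Fun} (hf : f ∈ BN (D.Q * D.R)) :
    compW D (compW D f) = f := by
  induction hf using Algebra.adjoin_induction with
  | mem x hx =>
    obtain ⟨d, hdne, hd, rfl⟩ := hx
    obtain ⟨d₁, e₁, d₂, f₂, h1, h2, rfl⟩ := exists_factor D hd
    obtain ⟨p1, p2, p3, p4⟩ := factor_pos D h1 h2
    haveI : NeZero (e₁ * d₂) := ⟨(Nat.mul_pos p2 p3).ne'⟩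
    rw [compW_jd D d₁ e₁ d₂ f₂ h1 h2, compW_jd D e₁ d₁ d₂ f₂ ((mul_comm e₁ d₁).trans h1) h2]
  | algebraMap c =>
    rw [AlgHom.commutes, AlgHom.commutes]
  | add x y _ _ hx hy =>
    rw [map_add, map_add, hx, hy]
  | mul x y _ _ hx hy =>
    rw [map_mul, map_mul, hx, hy]

/-- `f ↦ f ∘ W` on `B_N`, `N = Q R`. -/
def wBHom (D : ALData) : BN (D.Q * D.R) →ₐ[Kbar] BN (D.Q * D.R) :=
  ((compW D).comp (BN (D.Q * D.R)).val).codRestrict (BN (D.Q * D.R))
    (fun f => compW_mem_BN D f.2)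

theorem coe_wBHom (D : ALData) (f : BN (D.Q * D.R)) :
    ((wBHom D f : BN (D.Q * D.R)) : Fun) = compW D (f : Fun) := rfl

theorem wBHom_wBHom (D : ALData) (f : BN (D.Q * D.R)) : wBHom D (wBHom D f) = f :=
  Subtype.ext (compW_compW D f.2)

/-- the Atkin–Lehner involution of `B_N`. -/
def wB (D : ALData) : BN (D.Q * D.R) ≃ₐ[Kbar] BN (D.Q * D.R) :=
  AlgEquiv.ofAlgHom (wBHom D) (wBHom D)
    (AlgHom.ext fun f => wBHom_wBHom D f) (AlgHom.ext fun f => wBHom_wBHom D f)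

theorem wB_apply (D : ALData) (f : BN (D.Q * D.R)) : wB D f = wBHom D f := rfl

theorem wB_wB (D : ALData) (f : BN (D.Q * D.R)) : wB D (wB D f) = f := wBHom_wBHom D f

theorem wB_jdB (D : ALData) (d₁ e₁ d₂ f₂ : ℕ) [NeZero (d₁ * d₂)] [NeZero (e₁ * d₂)]
    (h1 : d₁ * e₁ = D.Q) (h2 : d₂ * f₂ = D.R) (hd : d₁ * d₂ ∣ D.Q * D.R)
    (hd' : e₁ * d₂ ∣ D.Q * D.R) :
    wB D (jdB (D.Q * D.R) (d₁ * d₂) hd) = jdB (D.Q * D.R) (e₁ * d₂) hd' :=
  Subtype.ext (compW_jd D d₁ e₁ d₂ f₂ h1 h2)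

end Fermat.Agent.AtkinLehner
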