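/-
Cluster T (bad reduction at `q ∥ N`), foundation (helper84): transport of a constant reduction
(`Deuring.ValSetup`, with the lattice property) along an automorphism `w` of the function field:
`S.comapEquiv w` has valuation ring `w⁻¹ (Ov)` and reduction map `f ↦ red (w f)`.
For `F = F_N`, `S` = the Gauss valuation `v_∞`, `w = w_q` (Atkin–Lehner) this is `v_0 = v_∞ ∘ w_q`.
-/
import Mathlib
import Fermat.Agent.Lib.Deuring.Basic

set_option autoImplicit false
set_option linter.style.haveILetI false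

noncomputable section

open AlgebraicCurve Fermat.Agent.RR Fermat.Agent.Deuring

namespace Fermat.Agent.BadRed

variable {K F k Fk : Type*} [Field K] [Field F] [Algebra K F]
  [Field k] [Field Fk] [Algebra k Fk]

/-- `w` as a ring homomorphism `w⁻¹ (Ov) → Ov`. -/
def comapRestr (O : ValuationSubring F) (w : F ≃ₐ[K] F) :
    ↥(O.comap (w : F →+* F)) →+* ↥O where
  toFun x := ⟨w (x : F), x.2⟩
  map_one' := Subtype.ext (map_one w)
  map_mul' x y := Subtype.ext (map_mul w (x : F) (y : F))
  map_zero' := Subtype.ext (map_zero w)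
  map_add' x y := Subtype.ext (map_add w (x : F) (y : F))

theorem coe_comapRestr (O : ValuationSubring F) (w : F ≃ₐ[K] F)
    (x : ↥(O.comap (w : F →+* F))) : ((comapRestr O w x : ↥O) : F) = w (x : F) := rfl

theorem mem_comap_iff (O : ValuationSubring F) (w : F ≃ₐ[K] F) (x : F) :
    x ∈ O.comap (w : F →+* F) ↔ w x ∈ O := Iff.rfl

theorem comapRestr_surjective (O : ValuationSubring F) (w : F ≃ₐ[K] F) :
    Function.Surjective (comapRestr O w) := by
  intro y
  refine ⟨⟨w.symm y, ?_⟩, Subtype.ext ?_⟩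
  · rw [mem_comap_iff, AlgEquiv.apply_symm_apply]
    exact y.2
  · rw [coe_comapRestr]
    exact AlgEquiv.apply_symm_apply w y

theorem isUnit_comapRestr_iff (O : ValuationSubring F) (w : F ≃ₐ[K] F)
    (x : ↥(O.comap (w : F →+* F))) : IsUnit (comapRestr O w x) ↔ IsUnit x := by
  constructor
  · intro h
    obtain ⟨u, hu⟩ := h
    have h1 : ((u : ↥O) : F) = w (x : F) := by rw [hu]; rfl
    have h2 : w.symm ((u⁻¹ : (↥O)ˣ) : ↥O) ∈ O.comap (w : F →+* F) := by
      rw [mem_comap_iff, AlgEquiv.apply_symm_apply]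
      exact Subtype.mem _
    refine IsUnit.of_mul_eq_one ⟨w.symm ((u⁻¹ : (↥O)ˣ) : ↥O), h2⟩ ?_
    apply Subtype.ext
    show (x : F) * w.symm ((u⁻¹ : (↥O)ˣ) : ↥O) = 1
    apply w.injective
    rw [map_mul, AlgEquiv.apply_symm_apply, map_one, ← h1]
    have := congrArg Subtype.val u.mul_inv
    exact this
  · intro h
    exact h.map (comapRestr O w)

/-- transport of a constant reduction along an automorphism of the function field. -/
def comapEquiv (S : ValSetup K F k Fk) (w : F ≃ₐ[K] F) : ValSetup K F k Fk where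
  A := S.A
  Ov := S.Ov.comap (w : F →+* F)
  res := S.res
  ρ := S.ρ.comp (comapRestr S.Ov w)
  hF := S.hF
  hFk := S.hFk
  res_surj := S.res_surj
  ρ_surj := S.ρ_surj.comp (comapRestr_surjective S.Ov w)
  mem_Ov_iff c := by
    rw [mem_comap_iff, AlgEquiv.commutes]
    exact S.mem_Ov_iff c
  ρ_algebraMap c hc hc' := by
    have h : algebraMap K F c ∈ S.Ov := (S.mem_Ov_iff c).mpr hc
    have e : comapRestr S.Ov w ⟨algebraMap K F c, hc'⟩ = ⟨algebraMap K F c, h⟩ :=
      Subtype.ext (AlgEquiv.commutes w c)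
    rw [RingHom.comp_apply, e]
    exact S.ρ_algebraMap c hc h
  ρ_eq_zero_iff f := by
    rw [RingHom.comp_apply, S.ρ_eq_zero_iff, isUnit_comapRestr_iff]
  scale f hf := by
    obtain ⟨c, hc, h1, h2⟩ := S.scale (w f) ((map_ne_zero w).mpr hf)
    refine ⟨c, hc, ?_, ?_⟩
    · rw [mem_comap_iff, map_mul, map_inv₀, AlgEquiv.commutes]
      exact h1
    · rw [mem_comap_iff, map_inv₀, map_mul, map_inv₀, AlgEquiv.commutes]
      exact h2

@[simp] theorem comapEquiv_A (S : ValSetup K F k Fk) (w : F ≃ₐ[K] F) :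
    (comapEquiv S w).A = S.A := rfl

@[simp] theorem comapEquiv_res (S : ValSetup K F k Fk) (w : F ≃ₐ[K] F) :
    (comapEquiv S w).res = S.res := rfl

theorem mem_comapEquiv_Ov (S : ValSetup K F k Fk) (w : F ≃ₐ[K] F) (f : F) :
    f ∈ (comapEquiv S w).Ov ↔ w f ∈ S.Ov := Iff.rfl

/-- the reduction map of the transported reduction is `f ↦ red (w f)`. -/
theorem comapEquiv_red (S : ValSetup K F k Fk) (w : F ≃ₐ[K] F) (f : F) :
    (comapEquiv S w).red f = S.red (w f) := by
  by_cases hf : w f ∈ S.Ov
  · rw [(comapEquiv S w).red_of_mem ((mem_comapEquiv_Ov S w f).mpr hf), S.red_of_mem hf]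
    rfl
  · rw [(comapEquiv S w).red_of_not_mem (fun h => hf ((mem_comapEquiv_Ov S w f).mp h)),
      S.red_of_not_mem hf]

/-- the lattice property is transported. -/
theorem hasLattice_comapEquiv (S : ValSetup K F k Fk) (w : F ≃ₐ[K] F) (hL : HasLattice S) :
    HasLattice (comapEquiv S w) := by
  intro W hW
  haveI := hW
  have hfin : FiniteDimensional K ↥(W.map (w : F →ₗ[K] F)) := inferInstance
  obtain ⟨n, u, huW, huO, hspan, hli⟩ := hL (W.map (w : F →ₗ[K] F)) hfin
  refine ⟨n, fun i => w.symm (u i), fun i => ?_, fun i => ?_, ?_, ?_⟩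
  · obtain ⟨x, hx, hxu⟩ := huW i
    have : w.symm (u i) = x := by
      rw [← hxu]
      exact w.symm_apply_apply x
    show w.symm (u i) ∈ W
    rw [this]
    exact hx
  · show w.symm (u i) ∈ (comapEquiv S w).Ov
    rw [mem_comapEquiv_Ov, AlgEquiv.apply_symm_apply]
    exact huO i
  · apply le_antisymm
    · rw [Submodule.span_le]
      rintro _ ⟨i, rfl⟩
      obtain ⟨x, hx, hxu⟩ := huW i
      have : w.symm (u i) = x := by
        rw [← hxu]
        exact w.symm_apply_apply x
      show w.symm (u i) ∈ W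
      rw [this]
      exact hx
    · intro x hx
      have h1 : w x ∈ Submodule.span K (Set.range u) := by
        rw [hspan]
        exact ⟨x, hx, rfl⟩
      have h2 : w.symm (w x) ∈ (Submodule.span K (Set.range u)).map
          (w.symm : F →ₗ[K] F) := ⟨w x, h1, rfl⟩
      rw [AlgEquiv.symm_apply_apply, Submodule.map_span] at h2
      have e : (⇑(w.symm : F →ₗ[K] F)) '' Set.range u = Set.range fun i => w.symm (u i) := by
        ext y
        constructor
        · rintro ⟨_, ⟨i, rfl⟩, rfl⟩
          exact ⟨i, rfl⟩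
        · rintro ⟨i, rfl⟩
          exact ⟨u i, ⟨i, rfl⟩, rfl⟩
      rw [e] at h2
      exact h2
  · have e : (fun i => (comapEquiv S w).red (w.symm (u i))) = fun i => S.red (u i) := by
      funext i
      rw [comapEquiv_red, AlgEquiv.apply_symm_apply]
    rw [e]
    exact hli

end Fermat.Agent.BadRed
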