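/-
Cluster T (helper66), `Lib/BadRed`: integrality and reduction of a polynomial by interpolation.

`F` a field, `O` a subring, `C ∈ F[X]` of degree `≤ n`, `c₀, …, cₙ ∈ O` with `(cᵢ - cⱼ)⁻¹ ∈ O` (`i ≠ j`).
* `exists_lift_of_eval_mem` : if `C(cᵢ) ∈ O` for all `i` then `C` has coefficients in `O`;
* `map_eq_of_eval_eq`       : if moreover `ρ : O → κ` is a ring homomorphism to a field, the `ρ(cᵢ)` are
  pairwise distinct and `D ∈ κ[X]` of degree `≤ n` has `D(ρ cᵢ) = ρ (C(cᵢ))`, then `ρ(C) = D`.
Pure Mathlib.
-/
import Mathlib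

set_option autoImplicit false

namespace Fermat.Agent.BadRed

open Polynomial

noncomputable section

variable {F : Type*} [Field F] (O : Subring F)

/-- Lagrange interpolation with nodes whose differences are units of `O`: a polynomial with
values in `O` at the nodes has coefficients in `O`. -/
theorem exists_lift_of_eval_mem (C : F[X]) (n : ℕ) (hdeg : C.natDegree ≤ n)
    (c : Fin (n + 1) → F) (hinj : Function.Injective c) (hc : ∀ i, c i ∈ O)
    (hunit : ∀ i j, i ≠ j → (c i - c j)⁻¹ ∈ O) (hval : ∀ i, C.eval (c i) ∈ O) :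
    ∃ P : (↥O)[X], P.map O.subtype = C := by
  classical
  have hC : C = Lagrange.interpolate Finset.univ c (fun i => C.eval (c i)) := by
    apply Lagrange.eq_interpolate (hinj.injOn)
    rw [Finset.card_univ, Fintype.card_fin]
    exact lt_of_le_of_lt Polynomial.degree_le_natDegree
      (by exact_mod_cast Nat.lt_succ_of_le hdeg)
  have hmemC : ∀ a ∈ O, (Polynomial.C a : F[X]) ∈ Polynomial.lifts O.subtype := by
    intro a ha
    exact Polynomial.C_mem_lifts O.subtype ⟨a, ha⟩
  have hX : (Polynomial.X : F[X]) ∈ Polynomial.lifts O.subtype := Polynomial.X_mem_lifts _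
  have hneg : ∀ p ∈ Polynomial.lifts O.subtype, -p ∈ Polynomial.lifts O.subtype := by
    intro p hp
    obtain ⟨q, hq⟩ := (Polynomial.mem_lifts _).mp hp
    exact (Polynomial.mem_lifts _).mpr ⟨-q, by rw [Polynomial.map_neg, hq]⟩
  have hbasis : ∀ i, Lagrange.basis Finset.univ c i ∈ Polynomial.lifts O.subtype := by
    intro i
    rw [Lagrange.basis]
    apply Subsemiring.prod_mem
    intro j hj
    rw [Lagrange.basisDivisor]
    apply Subsemiring.mul_mem
    · exact hmemC _ (hunit i j (Finset.ne_of_mem_erase hj).symm)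
    · rw [sub_eq_add_neg]
      exact Subsemiring.add_mem _ hX (hneg _ (hmemC _ (hc j)))
  have hmem : C ∈ Polynomial.lifts O.subtype := by
    rw [hC, Lagrange.interpolate_apply]
    apply Subsemiring.sum_mem
    intro i _
    exact Subsemiring.mul_mem _ (hmemC _ (hval i)) (hbasis i)
  exact (Polynomial.mem_lifts _).mp hmem

/-- The reduction of an interpolated polynomial is the interpolation of the reduced values. -/
theorem map_eq_of_eval_eq {κ : Type*} [Field κ] (ρ : ↥O →+* κ) (P : (↥O)[X]) (n : ℕ)
    (hdeg : P.natDegree ≤ n) (c : Fin (n + 1) → ↥O)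
    (hinj : Function.Injective fun i => ρ (c i))
    (D : κ[X]) (hD : D.natDegree ≤ n)
    (hval : ∀ i, D.eval (ρ (c i)) = ρ (P.eval (c i))) :
    P.map ρ = D := by
  classical
  apply Polynomial.eq_of_degrees_lt_of_eval_index_eq (s := Finset.univ)
    (v := fun i => ρ (c i)) (hinj.injOn)
  · rw [Finset.card_univ, Fintype.card_fin]
    exact lt_of_le_of_lt Polynomial.degree_le_natDegree
      (by exact_mod_cast Nat.lt_succ_of_le (le_trans Polynomial.natDegree_map_le hdeg))
  · rw [Finset.card_univ, Fintype.card_fin]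
    exact lt_of_le_of_lt Polynomial.degree_le_natDegree
      (by exact_mod_cast Nat.lt_succ_of_le hD)
  · intro i _
    rw [Polynomial.eval_map, Polynomial.eval₂_at_apply, hval]

end

end Fermat.Agent.BadRed
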