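/-
Cluster T (helper66), `Lib/BadRed`: the characteristic polynomial of `β y` over `α F` from norms,
abstractly.

`α β : F →ₐ[K] F'`, `F'` finite over `F` along `α`, `C := charpoly (mul (β y))`.  Then
`C(c) = Norm_α (β (c - y))` for constants `c ∈ K`; if these norms lie in a subring `O ⊆ F` for
`n + 1` constants with unit differences, then `C` has coefficients in `O`, and its reduction is
determined by the reductions of the norms.
-/
import Mathlib
import Fermat.Prelude.Def_AlgebraicCurve_Correspondence
import Fermat.Agent.Lib.BadRed.Interp

set_option autoImplicit false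
set_option linter.style.haveILetI false

namespace Fermat.Agent.BadRed

open Polynomial AlgebraicCurve

noncomputable section

variable {K F F' : Type*} [Field K] [Field F] [Field F'] [Algebra K F] [Algebra K F']

/-- The characteristic polynomial over `F` (along `α`) of the multiplication by `x ∈ F'`. -/
def charpolyAlong (α : F →ₐ[K] F') (hfin : FiniteAlong K α) (x : F') : F[X] :=
  letI := algebraAlong α
  haveI : Module.Finite F F' := hfin
  LinearMap.charpoly (LinearMap.mul F F' x)

/-- the norm along `α` (same as `F3G.normAlong`, restated to keep this file independent) -/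
def normAlongT (α : F →ₐ[K] F') : F' →* F :=
  letI := algebraAlong α
  Algebra.norm F

theorem charpolyAlong_monic (α : F →ₐ[K] F') (hfin : FiniteAlong K α) (x : F') :
    (charpolyAlong α hfin x).Monic := by
  letI := algebraAlong α
  haveI : Module.Finite F F' := hfin
  exact LinearMap.charpoly_monic _

theorem charpolyAlong_natDegree (α : F →ₐ[K] F') (hfin : FiniteAlong K α) (x : F') :
    (charpolyAlong α hfin x).natDegree = finrankAlong K α := by
  letI := algebraAlong α
  haveI : Module.Finite F F' := hfin
  exact LinearMap.charpoly_natDegree _

theorem aeval_charpolyAlong (α : F →ₐ[K] F') (hfin : FiniteAlong K α) (x : F') :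
    (charpolyAlong α hfin x).eval₂ α.toRingHom x = 0 := by
  letI := algebraAlong α
  haveI : Module.Finite F F' := hfin
  have h := LinearMap.aeval_self_charpoly (LinearMap.mul F F' x)
  have h2 : Polynomial.aeval x (LinearMap.charpoly (LinearMap.mul F F' x)) = 0 := by
    have h3 := congrArg (fun f : Module.End F F' => f 1) h
    have h4 : (Polynomial.aeval (LinearMap.mul F F' x)
        (LinearMap.charpoly (LinearMap.mul F F' x))) =
        LinearMap.mul F F' (Polynomial.aeval x (LinearMap.charpoly (LinearMap.mul F F' x))) := by
      have := Polynomial.aeval_algHom_apply (Algebra.lmul F F') x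
        (LinearMap.charpoly (LinearMap.mul F F' x))
      exact this
    rw [h4] at h3
    simpa using h3
  exact h2

theorem eval_charpolyAlong (α : F →ₐ[K] F') (hfin : FiniteAlong K α) (x : F') (t : F) :
    (charpolyAlong α hfin x).eval t = normAlongT α (α t - x) := by
  letI := algebraAlong α
  haveI : Module.Finite F F' := hfin
  show (LinearMap.charpoly (LinearMap.mul F F' x)).eval t = Algebra.norm F (α t - x)
  rw [LinearMap.eval_charpoly, Algebra.norm_apply]
  congr 1
  ext z
  simp only [LinearMap.sub_apply, Module.algebraMap_end_apply, LinearMap.mul_apply_apply,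
    Algebra.coe_lmul_eq_mul, sub_mul]
  rfl

/-- value at a constant: `C(c) = Norm_α (β (c - y))`. -/
theorem eval_charpolyAlong_const (α β : F →ₐ[K] F') (hfin : FiniteAlong K α) (y : F) (c : K) :
    (charpolyAlong α hfin (β y)).eval (algebraMap K F c) =
      normAlongT α (β (algebraMap K F c - y)) := by
  rw [eval_charpolyAlong]
  congr 1
  rw [map_sub β, AlgHom.commutes, AlgHom.commutes]

end

end Fermat.Agent.BadRed
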