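/-
Cluster T (bad reduction at `ℓ ‖ Nℓ`), piece BR1 (helper50): INTERFACE with the Kronecker
congruence (owner of the proofs: helper66, file `Lib/BadRed/KroneckerCharpoly.lean`).
Definitions only.

`F₀ = F_N`, `F = F_{Nℓ}` (an `F₀`-algebra through `heckeAlphaBar`), `θ = heckeBetaBar j = j(q^ℓ)`,
`O_v` = Gauss valuation ring of `F₀` at a place `A` of `ℚ̄` over `ℓ`.

* `KroneckerCharpoly N ℓ` : there is a monic `C ∈ F₀[T]` of degree `ℓ + 1` with coefficients in `O_v`,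
  `C(θ) = 0` and `C ≡ (T - j^ℓ)(T^ℓ - j)` modulo the maximal ideal of `O_v`
  (`C` = the modular polynomial `Φ_ℓ(j, T)` = characteristic polynomial of `θ` over `F₀`).
* `BetaJNotMem N ℓ` : `θ ∉ F₀`.
-/
import Mathlib
import Fermat.Agent.Lib.GaussInt.Bundle
import Fermat.Agent.S24.EmbF
import Fermat.Prelude.Def_ModularCurve_HeckeOperator

set_option autoImplicit false

noncomputable section

namespace Fermat.Agent.BadRed

open ModularCurve Fermat.Agent.GaussInt Polynomial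

/-- The Gauss valuation ring of `F_N = modularFunctionFieldBar N` at a place `A` over `ℓ`. -/
abbrev gaussOv (N : ℕ) {ℓ : ℕ} (hℓ : ℓ.Prime) (A : ValuationSubring (AlgebraicClosure ℚ))
    (hA : A.LiesOverPrime ℓ) : ValuationSubring ↥(modularFunctionFieldBar N) :=
  gaussValSub (gaussHyp_modular (K := AlgebraicClosure ℚ) (A := A) N hℓ hA)

/-- **(KC)** Kronecker congruence for the characteristic polynomial of `j(q^ℓ)` over `F_N`. -/
def KroneckerCharpoly (N ℓ : ℕ) [NeZero N] [NeZero ℓ] : Prop :=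
  ∀ (hℓ : ℓ.Prime) (A : ValuationSubring (AlgebraicClosure ℚ)) (hA : A.LiesOverPrime ℓ),
    ∃ C : Polynomial ↥(modularFunctionFieldBar N),
      C.Monic ∧ C.natDegree = ℓ + 1 ∧
      (∀ i, C.coeff i ∈ gaussOv N hℓ A hA) ∧
      (∀ i, (C - (X - Polynomial.C (Fermat.Agent.S24.jBar N ^ ℓ)) *
            (X ^ ℓ - Polynomial.C (Fermat.Agent.S24.jBar N))).coeff i ∈
          (gaussOv N hℓ A hA).nonunits) ∧
      Polynomial.eval₂ ((heckeAlphaBar (AlgebraicClosure ℚ) N ℓ : ↥(modularFunctionFieldBar N) →+*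
          ↥(modularFunctionFieldBar (N * ℓ))))
        (heckeBetaBar (AlgebraicClosure ℚ) N ℓ (Fermat.Agent.S24.jBar N)) C = 0

/-- `j(q^ℓ)` does not lie in `F_N` (for `ℓ ∤ N`; stabilisers `Γ₀(N) ⊄ Γ₀(ℓ)`). -/
def BetaJNotMem (N ℓ : ℕ) [NeZero N] [NeZero ℓ] : Prop :=
  ∀ x : ↥(modularFunctionFieldBar N),
    heckeAlphaBar (AlgebraicClosure ℚ) N ℓ x ≠
      heckeBetaBar (AlgebraicClosure ℚ) N ℓ (Fermat.Agent.S24.jBar N)

end Fermat.Agent.BadRed
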