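/-
Cluster T (bad reduction at `q ‖ N`), piece BR1, general valuation theory II (helper50).
Mathlib only.

* `LiesOverV Ov O`           : the valuation subring `O` of `F` lies over `Ov` (of `F₀`)
* `not_le_of_liesOverV`      : distinct extensions of `Ov` to an algebraic extension are incomparable
* `linearIndependent_of_resIndep` / `sum_card_le_finrank` :
    **fundamental inequality, residue form**: residually independent families at pairwise distinct
    extensions `O i` of `Ov` give `∑ i, n i ≤ [F : F₀]`.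
-/
import Mathlib
import Fermat.Agent.Lib.BadRed.ValApprox

set_option autoImplicit false

noncomputable section

namespace Fermat.Agent.BadRed

open scoped Classical

variable {F₀ F : Type*} [Field F₀] [Field F] [Algebra F₀ F]

/-- The valuation subring `O` of `F` lies over the valuation subring `Ov` of `F₀`. -/
def LiesOverV (Ov : ValuationSubring F₀) (O : ValuationSubring F) : Prop :=
  O.comap (algebraMap F₀ F) = Ov

namespace LiesOverV

variable {Ov : ValuationSubring F₀} {O : ValuationSubring F}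

theorem mem_iff (h : LiesOverV Ov O) (a : F₀) : algebraMap F₀ F a ∈ O ↔ a ∈ Ov := by
  rw [← h]; exact Iff.rfl

theorem nonunits_iff (h : LiesOverV Ov O) (a : F₀) :
    algebraMap F₀ F a ∈ O.nonunits ↔ a ∈ Ov.nonunits := by
  rw [ValuationSubring.mem_nonunits_iff_or, ValuationSubring.mem_nonunits_iff_or,
    ← map_inv₀, h.mem_iff, map_eq_zero]

theorem val_le_one_iff (h : LiesOverV Ov O) (a : F₀) :
    O.valuation (algebraMap F₀ F a) ≤ 1 ↔ Ov.valuation a ≤ 1 := by
  rw [ValuationSubring.valuation_le_one_iff, ValuationSubring.valuation_le_one_iff, h.mem_iff]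

theorem val_lt_one_iff (h : LiesOverV Ov O) (a : F₀) :
    O.valuation (algebraMap F₀ F a) < 1 ↔ Ov.valuation a < 1 := by
  rw [← ValuationSubring.mem_nonunits_iff, ← ValuationSubring.mem_nonunits_iff, h.nonunits_iff]

theorem val_eq_one_iff (h : LiesOverV Ov O) (a : F₀) :
    O.valuation (algebraMap F₀ F a) = 1 ↔ Ov.valuation a = 1 := by
  constructor
  · intro h1
    refine le_antisymm ((h.val_le_one_iff a).mp h1.le) ?_
    rw [← not_lt, ← h.val_lt_one_iff, not_lt]
    exact h1.ge
  · intro h1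
    refine le_antisymm ((h.val_le_one_iff a).mpr h1.le) ?_
    rw [← not_lt, h.val_lt_one_iff, not_lt]
    exact h1.ge

end LiesOverV

/-- In a vanishing finite sum with a nonzero term, the maximal value is attained twice. -/
theorem exists_ne_val_eq_of_sum_eq_zero {Γ : Type*} [LinearOrderedCommGroupWithZero Γ]
    (v : Valuation F Γ) {ι : Type*} (s : Finset ι) (t : ι → F)
    (hsum : ∑ i ∈ s, t i = 0) (hne : ∃ i ∈ s, t i ≠ 0) :
    ∃ i ∈ s, ∃ j ∈ s, i ≠ j ∧ v (t i) = v (t j) ∧ t j ≠ 0 := by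
  obtain ⟨i₀, hi₀, hti₀⟩ := hne
  obtain ⟨j, hj, hmax⟩ := Finset.exists_max_image s (fun i => v (t i)) ⟨i₀, hi₀⟩
  have hj0 : t j ≠ 0 := by
    intro h0
    have := hmax i₀ hi₀
    simp only [h0, map_zero] at this
    exact hti₀ ((map_eq_zero v).mp (le_antisymm this zero_le))
  by_contra hcon
  have hlt : ∀ i ∈ s \ {j}, v (t i) < v (t j) := by
    intro i hi
    rw [Finset.mem_sdiff, Finset.mem_singleton] at hi
    refine lt_of_le_of_ne (hmax i hi.1) fun heq => hcon ⟨i, hi.1, j, hj, hi.2, heq, hj0⟩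
  have := v.map_sum_eq_of_lt hj hlt
  rw [hsum, map_zero] at this
  exact hj0 ((map_eq_zero v).mp this.symm)

/-- Distinct extensions of a valuation subring to an algebraic extension are incomparable. -/
theorem eq_of_le_of_liesOverV [Algebra.IsAlgebraic F₀ F] {Ov : ValuationSubring F₀}
    {O₁ O₂ : ValuationSubring F} (h₁ : LiesOverV Ov O₁) (h₂ : LiesOverV Ov O₂)
    (hle : O₁ ≤ O₂) : O₁ = O₂ := by
  refine le_antisymm hle fun x hx2 => ?_
  by_contra hx1
  have hx0 : x ≠ 0 := fun h => hx1 (h ▸ O₁.zero_mem)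
  set y := x⁻¹ with hy
  have hy0 : y ≠ 0 := inv_ne_zero hx0
  -- `v₁ y < 1`, `v₂ y = 1`
  have hv1 : O₁.valuation y < 1 := by
    rw [← ValuationSubring.mem_nonunits_iff, hy, ValuationSubring.inv_mem_nonunits_iff]
    exact Or.inr hx1
  have hv2 : O₂.valuation y = 1 := by
    have h1 : O₂.valuation y ≤ 1 :=
      (O₂.valuation_le_one_iff y).mpr (hle ((O₁.valuation_le_one_iff y).mp hv1.le))
    have h2 : O₂.valuation x ≤ 1 := (O₂.valuation_le_one_iff x).mpr hx2
    have h3 : O₂.valuation x * O₂.valuation y = 1 := by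
      rw [← map_mul, hy, mul_inv_cancel₀ hx0, map_one]
    refine le_antisymm h1 ?_
    calc (1 : O₂.ValueGroup) = O₂.valuation x * O₂.valuation y := h3.symm
      _ ≤ 1 * O₂.valuation y := by gcongr
      _ = O₂.valuation y := one_mul _
  -- an algebraic relation
  obtain ⟨p, hp0, hpy⟩ := (Algebra.IsAlgebraic.isAlgebraic (R := F₀) y)
  rw [Polynomial.aeval_eq_sum_range, ← Finset.sum_filter_ne_zero] at hpy
  have hsupp : ∃ l, p.coeff l ≠ 0 := by
    by_contra h
    apply hp0
    ext l
    simpa using not_not.mp (not_exists.mp h l)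
  obtain ⟨l₀, hl₀⟩ := hsupp
  have hl₀' : l₀ ∈ Finset.range (p.natDegree + 1) := by
    rw [Finset.mem_range, Nat.lt_succ_iff]
    exact Polynomial.le_natDegree_of_ne_zero hl₀
  have hterm : ∀ l, p.coeff l • y ^ l ≠ 0 → p.coeff l ≠ 0 := by
    intro l h h0
    exact h (by rw [h0, zero_smul])
  obtain ⟨i, hi, j, hj, hij, hval, hj0⟩ := exists_ne_val_eq_of_sum_eq_zero O₁.valuation _ _ hpy
    ⟨l₀, by
      rw [Finset.mem_filter]
      exact ⟨hl₀', smul_ne_zero hl₀ (pow_ne_zero _ hy0)⟩, smul_ne_zero hl₀ (pow_ne_zero _ hy0)⟩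
  rw [Finset.mem_filter] at hi hj
  have hi0 : p.coeff i ≠ 0 := hterm i hi.2
  have hj0' : p.coeff j ≠ 0 := hterm j hj.2
  -- wlog `i < j`
  have main : ∀ i j : ℕ, i < j → p.coeff i ≠ 0 → p.coeff j ≠ 0 →
      O₁.valuation (p.coeff i • y ^ i) = O₁.valuation (p.coeff j • y ^ j) → False := by
    intro i j hlt hi0 hj0 hval
    -- `a = coeff j / coeff i`, `a * y^(j-i) ` is a unit of `O₁`
    set a : F₀ := p.coeff j / p.coeff i with ha
    have hA : algebraMap F₀ F a * y ^ (j - i) * (p.coeff i • y ^ i) = p.coeff j • y ^ j := by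
      rw [Algebra.smul_def, Algebra.smul_def, ha, map_div₀]
      have hne : algebraMap F₀ F (p.coeff i) ≠ 0 := by
        rw [Ne, map_eq_zero]; exact hi0
      have e : y ^ j = y ^ (j - i) * y ^ i := by
        rw [← pow_add, Nat.sub_add_cancel hlt.le]
      rw [e]
      field_simp
    have hne' : O₁.valuation (p.coeff i • y ^ i) ≠ 0 := by
      rw [Ne, map_eq_zero]
      exact smul_ne_zero hi0 (pow_ne_zero _ hy0)
    have hu1 : O₁.valuation (algebraMap F₀ F a * y ^ (j - i)) = 1 := by
      have := congrArg O₁.valuation hA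
      rw [map_mul, ← hval] at this
      exact (mul_eq_right₀ hne').mp this
    -- so it is a unit of `O₂` as well
    have hu2 : O₂.valuation (algebraMap F₀ F a * y ^ (j - i)) = 1 := by
      have hmem : algebraMap F₀ F a * y ^ (j - i) ∈ O₂ :=
        hle ((O₁.valuation_le_one_iff _).mp hu1.le)
      have hmem' : (algebraMap F₀ F a * y ^ (j - i))⁻¹ ∈ O₂ := by
        apply hle
        apply (O₁.valuation_le_one_iff _).mp
        rw [map_inv₀, hu1, inv_one]
      have h1 := (O₂.valuation_le_one_iff _).mpr hmem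
      have h2 := (O₂.valuation_le_one_iff _).mpr hmem'
      rw [map_inv₀] at h2
      refine le_antisymm h1 ?_
      by_contra hlt'
      rw [not_le] at hlt'
      have hpos : O₂.valuation (algebraMap F₀ F a * y ^ (j - i)) ≠ 0 := by
        intro h0
        rw [h0, inv_zero] at h2
        rw [map_eq_zero] at h0
        rw [h0, map_zero] at hu1
        exact zero_ne_one hu1
      have := (inv_le_one₀ (zero_lt_iff.mpr hpos)).mp h2
      exact absurd this (not_le.mpr hlt')
    -- `v₁ a > 1`... in fact `v₁ (a) = v₁ y ^ (-(j-i)) > 1`, so `a⁻¹ ∈ m_v`, hence `v₂ a⁻¹ < 1`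
    have hpowlt : O₁.valuation (y ^ (j - i)) < 1 := by
      rw [map_pow]
      exact pow_lt_one₀ zero_le hv1 (Nat.sub_ne_zero_of_lt hlt)
    have ha1 : 1 < O₁.valuation (algebraMap F₀ F a) := by
      rw [map_mul] at hu1
      by_contra hle'
      rw [not_lt] at hle'
      have : O₁.valuation (algebraMap F₀ F a) * O₁.valuation (y ^ (j - i)) < 1 := by
        calc O₁.valuation (algebraMap F₀ F a) * O₁.valuation (y ^ (j - i))
            ≤ 1 * O₁.valuation (y ^ (j - i)) := by gcongr
          _ = O₁.valuation (y ^ (j - i)) := one_mul _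
          _ < 1 := hpowlt
      rw [hu1] at this
      exact lt_irrefl _ this
    have ha2 : 1 < O₂.valuation (algebraMap F₀ F a) := by
      rw [← not_le, h₂.val_le_one_iff, ← h₁.val_le_one_iff, not_le]
      exact ha1
    rw [map_mul, map_pow, hv2, one_pow, mul_one] at hu2
    rw [hu2] at ha2
    exact lt_irrefl _ ha2
  rcases lt_or_gt_of_ne hij with h | h
  · exact main i j h hi0 hj0' hval
  · exact main j i h hj0' hi0 hval.symm

theorem not_le_of_liesOverV [Algebra.IsAlgebraic F₀ F] {Ov : ValuationSubring F₀}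
    {O₁ O₂ : ValuationSubring F} (h₁ : LiesOverV Ov O₁) (h₂ : LiesOverV Ov O₂)
    (hne : O₁ ≠ O₂) : ¬ O₁ ≤ O₂ :=
  fun hle => hne (eq_of_le_of_liesOverV h₁ h₂ hle)


/-- A finite family of elements of `O` is residually independent over `Ov`: a combination with
coefficients in `Ov` lying in the maximal ideal of `O` has all its coefficients in the maximal
ideal of `Ov`. -/
def ResIndep (Ov : ValuationSubring F₀) (O : ValuationSubring F) {κ : Type*} [Fintype κ]
    (x : κ → F) : Prop :=
  (∀ l, x l ∈ O) ∧ ∀ a : κ → F₀, (∀ l, a l ∈ Ov) →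
    (∑ l, algebraMap F₀ F (a l) * x l) ∈ O.nonunits → ∀ l, a l ∈ Ov.nonunits

theorem val_eq_one_of_sub_one_mem_nonunits {O : ValuationSubring F} {E : F}
    (h : E - 1 ∈ O.nonunits) : O.valuation E = 1 := by
  rw [ValuationSubring.mem_nonunits_iff] at h
  have e : E = (E - 1) + 1 := by ring
  rw [e]
  have := Valuation.map_add_eq_of_lt_right O.valuation (x := E - 1) (y := 1)
    (by rw [map_one]; exact h)
  rw [this, map_one]

section FundIneq

variable {ι : Type*} [Fintype ι] (Ov : ValuationSubring F₀) (O : ι → ValuationSubring F)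

/-- **Fundamental inequality, residue form** (linear independence). -/
theorem linearIndependent_of_resIndep [Algebra.IsAlgebraic F₀ F]
    (hover : ∀ i, LiesOverV Ov (O i)) (hinj : Function.Injective O)
    (c : ℕ → F₀) (hc : ∀ m, c m ∈ Ov) (hcu : ∀ m m', m ≠ m' → c m - c m' ∉ Ov.nonunits)
    (κ : ι → Type*) [∀ i, Fintype (κ i)] (x : (i : ι) → κ i → F)
    (hx : ∀ i, ResIndep Ov (O i) (x i)) :
    ∃ y : (Σ i, κ i) → F, LinearIndependent F₀ y := by
  have hinc : ∀ i j, i ≠ j → ¬ O i ≤ O j := fun i j hij =>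
    not_le_of_liesOverV (hover i) (hover j) (fun h => hij (hinj h))
  have hc' : ∀ i m, algebraMap F₀ F (c m) ∈ O i := fun i m => ((hover i).mem_iff _).mpr (hc m)
  have hcu' : ∀ i m m', m ≠ m' →
      algebraMap F₀ F (c m) - algebraMap F₀ F (c m') ∉ (O i).nonunits := by
    intro i m m' hmm
    rw [← map_sub, (hover i).nonunits_iff]
    exact hcu m m' hmm
  have hE := fun i => exists_idempotent_like O (fun m => algebraMap F₀ F (c m)) hinc hc' hcu' i
  choose E hE1 hE2 hE3 using hE
  have hs := fun i => exists_common_denominator O (fun m => algebraMap F₀ F (c m)) hc' hcu' i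
    (x i) (hx i).1
  choose s hs1 hs2 hs3 using hs
  refine ⟨fun p => E p.1 * (s p.1 * x p.1 p.2), ?_⟩
  rw [Fintype.linearIndependent_iff]
  intro g hg
  by_contra hcon
  rw [not_forall] at hcon
  obtain ⟨p₁, hp₁⟩ := hcon
  obtain ⟨p₀, -, hmax⟩ := Finset.exists_max_image Finset.univ (fun p => Ov.valuation (g p))
    ⟨p₁, Finset.mem_univ _⟩
  have hp₀ : g p₀ ≠ 0 := by
    intro h0
    have := hmax p₁ (Finset.mem_univ _)
    simp only [h0, map_zero] at this
    exact hp₁ ((map_eq_zero _).mp (le_antisymm this zero_le))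
  obtain ⟨i₀, l₀⟩ := p₀
  set a : (Σ i, κ i) → F₀ := fun p => g p / g ⟨i₀, l₀⟩ with ha
  have haO : ∀ p, a p ∈ Ov := by
    intro p
    apply (Ov.valuation_le_one_iff _).mp
    rw [ha, map_div₀]
    exact (div_le_one₀ (zero_lt_iff.mpr (by rwa [Ne, map_eq_zero]))).mpr
      (hmax p (Finset.mem_univ _))
  have ha0 : a ⟨i₀, l₀⟩ = 1 := div_self hp₀
  have hsum : ∑ p : (Σ i, κ i), algebraMap F₀ F (a p) * (E p.1 * (s p.1 * x p.1 p.2)) = 0 := by
    have h1 : ∑ p : (Σ i, κ i), algebraMap F₀ F (a p) * (E p.1 * (s p.1 * x p.1 p.2)) =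
        (algebraMap F₀ F (g ⟨i₀, l₀⟩))⁻¹ *
          ∑ p : (Σ i, κ i), g p • (E p.1 * (s p.1 * x p.1 p.2)) := by
      rw [Finset.mul_sum]
      refine Finset.sum_congr rfl fun p _ => ?_
      rw [ha, map_div₀, Algebra.smul_def]
      ring
    rw [h1, hg, mul_zero]
  rw [Fintype.sum_sigma] at hsum
  -- the terms with `i ≠ i₀` lie in the maximal ideal of `O i₀`
  have hT : ∀ i, i ≠ i₀ →
      (∑ l, algebraMap F₀ F (a ⟨i, l⟩) * (E i * (s i * x i l))) ∈ (O i₀).nonunits := by
    intro i hi
    refine (O i₀).nonunits.sum_mem fun l _ => ?_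
    have h1 : algebraMap F₀ F (a ⟨i, l⟩) ∈ O i₀ := ((hover i₀).mem_iff _).mpr (haO _)
    have h2 : E i * (s i * x i l) ∈ (O i₀).nonunits :=
      nonunits_mul_mem (hE3 i i₀ (Ne.symm hi)) (hs3 i l i₀)
    exact mul_nonunits_mem h1 h2
  have hT0 : (∑ l, algebraMap F₀ F (a ⟨i₀, l⟩) * (E i₀ * (s i₀ * x i₀ l))) ∈ (O i₀).nonunits := by
    rw [← Finset.add_sum_erase Finset.univ _ (Finset.mem_univ i₀)] at hsum
    have := eq_neg_of_add_eq_zero_left hsum
    rw [this]
    refine (O i₀).nonunits.neg_mem ?_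
    refine (O i₀).nonunits.sum_mem fun i hi => ?_
    exact hT i (Finset.ne_of_mem_erase hi)
  have hX : (∑ l, algebraMap F₀ F (a ⟨i₀, l⟩) * x i₀ l) ∈ (O i₀).nonunits := by
    have e : (∑ l, algebraMap F₀ F (a ⟨i₀, l⟩) * (E i₀ * (s i₀ * x i₀ l))) =
        (E i₀ * s i₀) * ∑ l, algebraMap F₀ F (a ⟨i₀, l⟩) * x i₀ l := by
      rw [Finset.mul_sum]
      refine Finset.sum_congr rfl fun l _ => ?_
      ring
    rw [e, ValuationSubring.mem_nonunits_iff, map_mul, map_mul,
      val_eq_one_of_sub_one_mem_nonunits (hE2 i₀),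
      hs2 i₀, one_mul, one_mul] at hT0
    rwa [ValuationSubring.mem_nonunits_iff]
  have := (hx i₀).2 (fun l => a ⟨i₀, l⟩) (fun l => haO _) hX l₀
  rw [ha0, ValuationSubring.mem_nonunits_iff, map_one] at this
  exact lt_irrefl _ this

/-- **Fundamental inequality, residue form.** -/
theorem sum_card_le_finrank [FiniteDimensional F₀ F]
    (hover : ∀ i, LiesOverV Ov (O i)) (hinj : Function.Injective O)
    (c : ℕ → F₀) (hc : ∀ m, c m ∈ Ov) (hcu : ∀ m m', m ≠ m' → c m - c m' ∉ Ov.nonunits)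
    (κ : ι → Type*) [∀ i, Fintype (κ i)] (x : (i : ι) → κ i → F)
    (hx : ∀ i, ResIndep Ov (O i) (x i)) :
    ∑ i, Fintype.card (κ i) ≤ Module.finrank F₀ F := by
  obtain ⟨y, hy⟩ := linearIndependent_of_resIndep Ov O hover hinj c hc hcu κ x hx
  have := hy.fintype_card_le_finrank
  rwa [Fintype.card_sigma] at this

end FundIneq

end Fermat.Agent.BadRed
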