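/-
Cluster T (bad reduction at `q ∥ N`), piece BR1/M1 (helper50): **exactly two extensions**.

Abstract setting (nothing about modular curves): `F / F₀` a finite extension of fields of degree
`ℓ + 1`, `ℓ` prime, `Ov` a valuation subring of `F₀`, `O₁`, `O₂` valuation subrings of `F` lying
over `Ov`, `θ ∈ F`, `a b ∈ Ov` with

* `θ - a ∈ m₁`,  `θ ^ ℓ - b ∈ m₂`,
* the residue of `b` is not an `ℓ`-th power in the residue field of `Ov`,
* the residue field of `Ov` is infinite (constants `c m` with pairwise distinct residues).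

Then (by the fundamental inequality `sum_card_le_finrank`):

* `TwoExt.ne`            : `O₁ ≠ O₂`,
* `TwoExt.resIndep_pow`  : `1, θ, …, θ ^ (ℓ - 1)` are residually independent at `O₂`,
* `TwoExt.residue_one`   : `f₁ = 1`: every `x ∈ O₁` is congruent mod `m₁` to an element of `Ov`,
* `TwoExt.eq_or_eq`      : every valuation subring of `F` over `Ov` is `O₁` or `O₂`,
* `TwoExt.residue_pow`   : every `x ∈ O₂` is congruent mod `m₂` to `∑_{i<ℓ} gᵢ θ^i`, `gᵢ ∈ Ov`.

For `X₀(N ℓ) → X₀(N)`: `F₀ = F_N`, `F = F_{N ℓ}`, `Ov` the Gauss valuation at a place over `ℓ`,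
`O₁ = O_∞`, `O₂ = O_0 = w_ℓ (O_∞)`, `θ = j(q^ℓ)`, `a = j ^ ℓ`, `b = j`.
-/
import Mathlib
import Fermat.Agent.Lib.BadRed.FundIneq

set_option autoImplicit false

noncomputable section

namespace Fermat.Agent.BadRed

open scoped Classical
open Polynomial

variable {F₀ F : Type*} [Field F₀] [Field F] [Algebra F₀ F]

section Incl

variable {Ov : ValuationSubring F₀} {O : ValuationSubring F}

/-- the inclusion `Ov → O` of a valuation ring into an extension. -/
def LiesOverV.incl (h : LiesOverV Ov O) : Ov →+* O :=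
  ((algebraMap F₀ F).comp Ov.subtype).codRestrict O.toSubring (fun x => (h.mem_iff _).mpr x.2)

theorem LiesOverV.coe_incl (h : LiesOverV Ov O) (x : Ov) :
    ((h.incl x : O) : F) = algebraMap F₀ F x := rfl

theorem LiesOverV.isLocalHom_incl (h : LiesOverV Ov O) : IsLocalHom h.incl := by
  constructor
  intro x hx
  rw [← IsLocalRing.notMem_maximalIdeal, ← ValuationSubring.coe_mem_nonunits_iff] at hx ⊢
  rw [h.coe_incl, h.nonunits_iff] at hx
  exact hx

/-- the map of residue fields. -/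
def LiesOverV.resMap (h : LiesOverV Ov O) :
    IsLocalRing.ResidueField Ov →+* IsLocalRing.ResidueField O :=
  haveI := h.isLocalHom_incl
  IsLocalRing.ResidueField.map h.incl

theorem LiesOverV.resMap_residue (h : LiesOverV Ov O) (x : Ov) :
    h.resMap (IsLocalRing.residue Ov x) = IsLocalRing.residue O (h.incl x) := by
  have := h.isLocalHom_incl
  exact IsLocalRing.ResidueField.map_residue h.incl x

theorem residue_eq_zero_iff_mem_nonunits (O : ValuationSubring F) (x : O) :
    IsLocalRing.residue O x = 0 ↔ (x : F) ∈ O.nonunits := by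
  rw [IsLocalRing.residue_eq_zero_iff, ValuationSubring.coe_mem_nonunits_iff]

end Incl

section ResIndep

variable {Ov : ValuationSubring F₀} {O : ValuationSubring F}

/-- `1` is residually independent. -/
theorem resIndep_one (h : LiesOverV Ov O) : ResIndep Ov O (fun _ : Fin 1 => (1 : F)) := by
  refine ⟨fun _ => O.one_mem, fun a _ hsum l => ?_⟩
  rw [Fin.sum_univ_one, mul_one, h.nonunits_iff] at hsum
  have : l = 0 := Subsingleton.elim _ _
  rw [this]
  exact hsum

/-- if `x ∈ O` is not congruent to an element of `Ov`, then `1, x` are residually independent. -/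
theorem resIndep_pair (h : LiesOverV Ov O) {x : F} (hx : x ∈ O)
    (hno : ∀ g ∈ Ov, x - algebraMap F₀ F g ∉ O.nonunits) :
    ResIndep Ov O (fun i : Fin 2 => if i = 0 then (1 : F) else x) := by
  refine ⟨fun i => ?_, fun a ha hsum => ?_⟩
  · show (if i = 0 then (1 : F) else x) ∈ O
    split_ifs
    · exact O.one_mem
    · exact hx
  · rw [Fin.sum_univ_two] at hsum
    simp only [if_true, if_false, mul_one,
      show ((1 : Fin 2) = 0) = False from by simp] at hsum
    have h1 : a 1 ∈ Ov.nonunits := by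
      by_contra hu
      -- `a 1` is a unit of `Ov`
      have ha1 : a 1 ≠ 0 := by
        rintro h0
        apply hu
        rw [h0, ValuationSubring.mem_nonunits_iff, map_zero]
        exact zero_lt_one
      have hinv : (a 1)⁻¹ ∈ Ov := by
        rw [ValuationSubring.mem_nonunits_iff_or, not_or, not_not] at hu
        exact hu.2
      apply hno (-(a 0 * (a 1)⁻¹)) (Ov.neg_mem _ (Ov.mul_mem _ _ (ha 0) hinv))
      have e : x - algebraMap F₀ F (-(a 0 * (a 1)⁻¹)) =
          algebraMap F₀ F (a 1)⁻¹ * (algebraMap F₀ F (a 0) + algebraMap F₀ F (a 1) * x) := by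
        have : algebraMap F₀ F (a 1) ≠ 0 := by simpa using ha1
        simp only [map_neg, map_mul, map_inv₀]
        field_simp
        ring
      rw [e]
      exact mul_nonunits_mem ((h.mem_iff _).mpr hinv) hsum
    have h0 : a 0 ∈ Ov.nonunits := by
      rw [← h.nonunits_iff]
      have e : algebraMap F₀ F (a 0) =
          (algebraMap F₀ F (a 0) + algebraMap F₀ F (a 1) * x) - algebraMap F₀ F (a 1) * x := by
        ring
      rw [e]
      rw [ValuationSubring.mem_nonunits_iff] at hsum ⊢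
      refine lt_of_le_of_lt (Valuation.map_sub _ _ _) (max_lt hsum ?_)
      rw [← ValuationSubring.mem_nonunits_iff]
      exact nonunits_mul_mem ((h.nonunits_iff _).mpr h1) hx
    intro l
    fin_cases l
    · exact h0
    · exact h1

/-- if `θ ^ ℓ ≡ b` at `O` and the residue of `b` is not an `ℓ`-th power in the residue field of
`Ov` (`ℓ` prime), then `1, θ, …, θ ^ (ℓ - 1)` are residually independent. -/
theorem resIndep_pow (h : LiesOverV Ov O) {ℓ : ℕ} (hℓ : ℓ.Prime) {θ : F} {b : F₀}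
    (hb : b ∈ Ov) (hθ : θ ^ ℓ - algebraMap F₀ F b ∈ O.nonunits)
    (hnp : ∀ u ∈ Ov, u ^ ℓ - b ∉ Ov.nonunits) :
    ResIndep Ov O (fun i : Fin ℓ => θ ^ (i : ℕ)) := by
  have hθℓ : θ ^ ℓ ∈ O := by
    have e : θ ^ ℓ = (θ ^ ℓ - algebraMap F₀ F b) + algebraMap F₀ F b := by ring
    rw [e]
    exact O.add_mem _ _ (O.nonunits_le hθ) ((h.mem_iff _).mpr hb)
  have hθO : θ ∈ O := by
    rw [← ValuationSubring.valuation_le_one_iff] at hθℓ ⊢
    rw [map_pow] at hθℓ
    exact (pow_le_one_iff_of_nonneg zero_le hℓ.ne_zero).mp hθℓ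
  refine ⟨fun i => O.pow_mem hθO _, fun a ha hsum => ?_⟩
  -- the residue fields
  set φ := h.resMap with hφ
  set bb : IsLocalRing.ResidueField Ov := IsLocalRing.residue Ov ⟨b, hb⟩ with hbb
  set tt : IsLocalRing.ResidueField O := IsLocalRing.residue O ⟨θ, hθO⟩ with htt
  have hirr : Irreducible (X ^ ℓ - C bb) := by
    apply X_pow_sub_C_irreducible_of_prime hℓ
    intro u hu
    obtain ⟨u, rfl⟩ := IsLocalRing.residue_surjective u
    apply hnp u u.2
    have h0 : IsLocalRing.residue Ov (u ^ ℓ - ⟨b, hb⟩) = 0 := by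
      rw [map_sub, map_pow, hu, sub_self]
    rw [residue_eq_zero_iff_mem_nonunits] at h0
    exact h0
  have htℓ : tt ^ ℓ = φ bb := by
    rw [hφ, hbb, h.resMap_residue, htt, ← map_pow, ← sub_eq_zero, ← map_sub,
      residue_eq_zero_iff_mem_nonunits]
    exact hθ
  -- the polynomial of the relation
  set P : (IsLocalRing.ResidueField Ov)[X] :=
    ∑ i : Fin ℓ, C (IsLocalRing.residue Ov ⟨a i, ha i⟩) * X ^ (i : ℕ) with hP
  have hPdeg : P.degree < ℓ := Polynomial.degree_sum_fin_lt _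
  have hPev : P.eval₂ φ tt = 0 := by
    rw [hP, Polynomial.eval₂_finsetSum]
    have e : ∀ i : Fin ℓ, (C (IsLocalRing.residue Ov ⟨a i, ha i⟩) * X ^ (i : ℕ)).eval₂ φ tt =
        IsLocalRing.residue O (⟨algebraMap F₀ F (a i) * θ ^ (i : ℕ),
          O.mul_mem _ _ ((h.mem_iff _).mpr (ha i)) (O.pow_mem hθO _)⟩ : O) := by
      intro i
      rw [Polynomial.eval₂_mul, Polynomial.eval₂_C, Polynomial.eval₂_pow, Polynomial.eval₂_X,
        hφ, h.resMap_residue, htt, ← map_pow, ← map_mul]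
      rfl
    rw [Finset.sum_congr rfl fun i _ => e i, ← map_sum, residue_eq_zero_iff_mem_nonunits]
    have : ((∑ i : Fin ℓ, (⟨algebraMap F₀ F (a i) * θ ^ (i : ℕ),
          O.mul_mem _ _ ((h.mem_iff _).mpr (ha i)) (O.pow_mem hθO _)⟩ : O) : O) : F) =
        ∑ i : Fin ℓ, algebraMap F₀ F (a i) * θ ^ (i : ℕ) := by
      rw [← ValuationSubring.subtype_apply, map_sum]
      rfl
    rw [this]
    exact hsum
  have hP0 : P = 0 := by
    by_contra hne
    have hcop : IsCoprime (X ^ ℓ - C bb) P := by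
      rw [hirr.coprime_iff_not_dvd]
      intro hdvd
      have := Polynomial.degree_le_of_dvd hdvd hne
      rw [Polynomial.degree_X_pow_sub_C hℓ.pos] at this
      exact absurd (lt_of_le_of_lt this hPdeg) (lt_irrefl _)
    obtain ⟨U, V, hUV⟩ := hcop
    have := congrArg (Polynomial.eval₂ φ tt) hUV
    rw [Polynomial.eval₂_add, Polynomial.eval₂_mul, Polynomial.eval₂_mul, hPev,
      Polynomial.eval₂_sub, Polynomial.eval₂_pow, Polynomial.eval₂_X, Polynomial.eval₂_C, htℓ,
      sub_self, mul_zero, mul_zero, add_zero, Polynomial.eval₂_one] at this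
    exact zero_ne_one this
  intro l
  have hcoeff : P.coeff (l : ℕ) = IsLocalRing.residue Ov ⟨a l, ha l⟩ := by
    rw [hP, Polynomial.finsetSum_coeff]
    rw [Finset.sum_eq_single l]
    · rw [Polynomial.coeff_C_mul, Polynomial.coeff_X_pow, if_pos rfl, mul_one]
    · intro i _ hil
      rw [Polynomial.coeff_C_mul, Polynomial.coeff_X_pow, if_neg, mul_zero]
      intro hh
      exact hil (Fin.ext hh.symm)
    · intro hl
      exact absurd (Finset.mem_univ l) hl
  rw [hP0, Polynomial.coeff_zero] at hcoeff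
  have := (residue_eq_zero_iff_mem_nonunits Ov ⟨a l, ha l⟩).mp hcoeff.symm
  exact this

/-- extending a residually independent family by an element which is not congruent to a
combination of the family. -/
theorem resIndep_snoc (h : LiesOverV Ov O) {n : ℕ} {x : Fin n → F} (hx : ResIndep Ov O x)
    {y : F} (hy : y ∈ O)
    (hno : ∀ g : Fin n → F₀, (∀ i, g i ∈ Ov) →
      y - ∑ i, algebraMap F₀ F (g i) * x i ∉ O.nonunits) :
    ResIndep Ov O (Fin.snoc x y : Fin (n + 1) → F) := by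
  refine ⟨fun i => ?_, fun a ha hsum => ?_⟩
  · refine Fin.lastCases ?_ (fun i => ?_) i
    · rw [Fin.snoc_last]
      exact hy
    · rw [Fin.snoc_castSucc]
      exact hx.1 i
  · rw [Fin.sum_univ_castSucc] at hsum
    simp only [Fin.snoc_castSucc, Fin.snoc_last] at hsum
    have hsumO : ∀ g : Fin n → F₀, (∀ i, g i ∈ Ov) →
        ∑ i, algebraMap F₀ F (g i) * x i ∈ O := fun g hg =>
      O.toSubring.sum_mem fun i _ => O.mul_mem _ _ ((h.mem_iff _).mpr (hg i)) (hx.1 i)
    have h1 : a (Fin.last n) ∈ Ov.nonunits := by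
      by_contra hu
      have ha1 : a (Fin.last n) ≠ 0 := by
        rintro h0
        apply hu
        rw [h0, ValuationSubring.mem_nonunits_iff, map_zero]
        exact zero_lt_one
      have hinv : (a (Fin.last n))⁻¹ ∈ Ov := by
        rw [ValuationSubring.mem_nonunits_iff_or, not_or, not_not] at hu
        exact hu.2
      apply hno (fun i => -(a (Fin.castSucc i) * (a (Fin.last n))⁻¹))
        (fun i => Ov.neg_mem _ (Ov.mul_mem _ _ (ha _) hinv))
      have e : y - ∑ i, algebraMap F₀ F (-(a (Fin.castSucc i) * (a (Fin.last n))⁻¹)) * x i =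
          algebraMap F₀ F (a (Fin.last n))⁻¹ *
            (∑ i, algebraMap F₀ F (a (Fin.castSucc i)) * x i +
              algebraMap F₀ F (a (Fin.last n)) * y) := by
        have hne : algebraMap F₀ F (a (Fin.last n)) ≠ 0 := by simpa using ha1
        rw [mul_add, Finset.mul_sum, map_inv₀, ← mul_assoc, inv_mul_cancel₀ hne, one_mul,
          sub_eq_add_neg, add_comm, ← Finset.sum_neg_distrib]
        congr 1
        refine Finset.sum_congr rfl fun i _ => ?_
        rw [map_neg, map_mul, map_inv₀]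
        ring
      rw [e]
      exact mul_nonunits_mem ((h.mem_iff _).mpr hinv) hsum
    have h0 : ∑ i, algebraMap F₀ F (a (Fin.castSucc i)) * x i ∈ O.nonunits := by
      have e : ∑ i, algebraMap F₀ F (a (Fin.castSucc i)) * x i =
          (∑ i, algebraMap F₀ F (a (Fin.castSucc i)) * x i +
            algebraMap F₀ F (a (Fin.last n)) * y) - algebraMap F₀ F (a (Fin.last n)) * y := by
        ring
      rw [e]
      rw [ValuationSubring.mem_nonunits_iff] at hsum ⊢
      refine lt_of_le_of_lt (Valuation.map_sub _ _ _) (max_lt hsum ?_)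
      rw [← ValuationSubring.mem_nonunits_iff]
      exact nonunits_mul_mem ((h.nonunits_iff _).mpr h1) hy
    have h2 := hx.2 (fun i => a (Fin.castSucc i)) (fun i => ha _) h0
    intro l
    refine Fin.lastCases ?_ (fun i => ?_) l
    · exact h1
    · exact h2 i

end ResIndep

/-! ### The count for two and three extensions -/

section Count

variable [FiniteDimensional F₀ F] {Ov : ValuationSubring F₀}

/-- sizes of three families -/
def cnt3 (n₁ n₂ n₃ : ℕ) : Fin 3 → ℕ
  | 0 => n₁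
  | 1 => n₂
  | 2 => n₃

/-- three families as a dependent family -/
def fam3 {n₁ n₂ n₃ : ℕ} (x₁ : Fin n₁ → F) (x₂ : Fin n₂ → F) (x₃ : Fin n₃ → F) :
    (i : Fin 3) → Fin (cnt3 n₁ n₂ n₃ i) → F
  | 0 => x₁
  | 1 => x₂
  | 2 => x₃

/-- three rings as a family -/
def rng3 (O₁ O₂ O₃ : ValuationSubring F) : Fin 3 → ValuationSubring F
  | 0 => O₁
  | 1 => O₂
  | 2 => O₃

/-- **Fundamental inequality for three extensions.** -/
theorem count_three {O₁ O₂ O₃ : ValuationSubring F}
    (h₁ : LiesOverV Ov O₁) (h₂ : LiesOverV Ov O₂) (h₃ : LiesOverV Ov O₃)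
    (h12 : O₁ ≠ O₂) (h13 : O₁ ≠ O₃) (h23 : O₂ ≠ O₃)
    (c : ℕ → F₀) (hc : ∀ m, c m ∈ Ov) (hcu : ∀ m m', m ≠ m' → c m - c m' ∉ Ov.nonunits)
    {n₁ n₂ n₃ : ℕ} {x₁ : Fin n₁ → F} {x₂ : Fin n₂ → F} {x₃ : Fin n₃ → F}
    (hx₁ : ResIndep Ov O₁ x₁) (hx₂ : ResIndep Ov O₂ x₂) (hx₃ : ResIndep Ov O₃ x₃) :
    n₁ + n₂ + n₃ ≤ Module.finrank F₀ F := by
  have key := sum_card_le_finrank Ov (rng3 O₁ O₂ O₃) (fun i => by
      fin_cases i
      · exact h₁
      · exact h₂
      · exact h₃) (fun i j hij => by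
      fin_cases i <;> fin_cases j <;>
        first
          | rfl
          | exact absurd hij h12
          | exact absurd hij h13
          | exact absurd hij h23
          | exact absurd hij.symm h12
          | exact absurd hij.symm h13
          | exact absurd hij.symm h23) c hc hcu
    (fun i => Fin (cnt3 n₁ n₂ n₃ i)) (fam3 x₁ x₂ x₃) (fun i => by
      fin_cases i
      · exact hx₁
      · exact hx₂
      · exact hx₃)
  simp only [Fintype.card_fin, Fin.sum_univ_three] at key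
  exact key

/-- **Fundamental inequality for two extensions.** -/
theorem count_two {O₁ O₂ : ValuationSubring F}
    (h₁ : LiesOverV Ov O₁) (h₂ : LiesOverV Ov O₂) (h12 : O₁ ≠ O₂)
    (c : ℕ → F₀) (hc : ∀ m, c m ∈ Ov) (hcu : ∀ m m', m ≠ m' → c m - c m' ∉ Ov.nonunits)
    {n₁ n₂ : ℕ} {x₁ : Fin n₁ → F} {x₂ : Fin n₂ → F}
    (hx₁ : ResIndep Ov O₁ x₁) (hx₂ : ResIndep Ov O₂ x₂) :
    n₁ + n₂ ≤ Module.finrank F₀ F := by
  have key := sum_card_le_finrank Ov (fun i : Fin 2 => if i = 0 then O₁ else O₂) (fun i => by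
      fin_cases i
      · exact h₁
      · exact h₂) (fun i j hij => by
      fin_cases i <;> fin_cases j <;>
        first
          | rfl
          | exact absurd hij h12
          | exact absurd hij.symm h12) c hc hcu
    (fun i => Fin (if i = 0 then n₁ else n₂))
    (fun i => if h : i = 0 then fun l => x₁ (Fin.cast (by rw [if_pos h]) l)
      else fun l => x₂ (Fin.cast (by rw [if_neg h]) l)) (fun i => by
      fin_cases i
      · exact hx₁
      · exact hx₂)
  simp only [Fintype.card_fin, Fin.sum_univ_two] at key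
  exact key

end Count

/-! ### The two-extension package -/

/-- The hypotheses of the two-extension theorem. -/
structure TwoExt (Ov : ValuationSubring F₀) (O₁ O₂ : ValuationSubring F) (ℓ : ℕ) (θ : F)
    (a b : F₀) : Prop where
  over₁ : LiesOverV Ov O₁
  over₂ : LiesOverV Ov O₂
  prime : ℓ.Prime
  finrank_eq : Module.finrank F₀ F = ℓ + 1
  ha : a ∈ Ov
  hb : b ∈ Ov
  hθ₁ : θ - algebraMap F₀ F a ∈ O₁.nonunits
  hθ₂ : θ ^ ℓ - algebraMap F₀ F b ∈ O₂.nonunits
  not_pow : ∀ u ∈ Ov, u ^ ℓ - b ∉ Ov.nonunits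
  infinite : ∃ c : ℕ → F₀, (∀ m, c m ∈ Ov) ∧ ∀ m m', m ≠ m' → c m - c m' ∉ Ov.nonunits

namespace TwoExt

variable {Ov : ValuationSubring F₀} {O₁ O₂ : ValuationSubring F} {ℓ : ℕ} {θ : F} {a b : F₀}

theorem finiteDimensional (T : TwoExt Ov O₁ O₂ ℓ θ a b) : FiniteDimensional F₀ F :=
  Module.finite_of_finrank_pos (by rw [T.finrank_eq]; exact Nat.succ_pos _)

theorem theta_mem₁ (T : TwoExt Ov O₁ O₂ ℓ θ a b) : θ ∈ O₁ := by
  have e : θ = (θ - algebraMap F₀ F a) + algebraMap F₀ F a := by ring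
  rw [e]
  exact O₁.add_mem _ _ (O₁.nonunits_le T.hθ₁) ((T.over₁.mem_iff _).mpr T.ha)

theorem theta_mem₂ (T : TwoExt Ov O₁ O₂ ℓ θ a b) : θ ∈ O₂ := by
  have hθℓ : θ ^ ℓ ∈ O₂ := by
    have e : θ ^ ℓ = (θ ^ ℓ - algebraMap F₀ F b) + algebraMap F₀ F b := by ring
    rw [e]
    exact O₂.add_mem _ _ (O₂.nonunits_le T.hθ₂) ((T.over₂.mem_iff _).mpr T.hb)
  rw [← ValuationSubring.valuation_le_one_iff] at hθℓ ⊢
  rw [map_pow] at hθℓ
  exact (pow_le_one_iff_of_nonneg zero_le T.prime.ne_zero).mp hθℓ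

/-- `1, θ, …, θ ^ (ℓ - 1)` are residually independent at `O₂`. -/
theorem resIndep_pow₂ (T : TwoExt Ov O₁ O₂ ℓ θ a b) :
    ResIndep Ov O₂ (fun i : Fin ℓ => θ ^ (i : ℕ)) :=
  resIndep_pow T.over₂ T.prime T.hb T.hθ₂ T.not_pow

/-- the two extensions are different. -/
theorem ne (T : TwoExt Ov O₁ O₂ ℓ θ a b) : O₁ ≠ O₂ := by
  intro h12
  apply T.not_pow a T.ha
  rw [← T.over₂.nonunits_iff]
  have h1 : θ - algebraMap F₀ F a ∈ O₂.nonunits := h12 ▸ T.hθ₁
  -- `θ ^ ℓ - a ^ ℓ = (θ - a) * (…)`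
  have ha₂ : algebraMap F₀ F a ∈ O₂ := (T.over₂.mem_iff _).mpr T.ha
  have h2 : θ ^ ℓ - (algebraMap F₀ F a) ^ ℓ ∈ O₂.nonunits := by
    have e : θ ^ ℓ - (algebraMap F₀ F a) ^ ℓ =
        (θ - algebraMap F₀ F a) *
          ∑ i ∈ Finset.range ℓ, θ ^ i * (algebraMap F₀ F a) ^ (ℓ - 1 - i) := by
      rw [mul_comm]
      exact (geom_sum₂_mul _ _ ℓ).symm
    rw [e]
    refine nonunits_mul_mem h1 (O₂.toSubring.sum_mem fun i _ => ?_)
    exact O₂.mul_mem _ _ (O₂.pow_mem T.theta_mem₂ _) (O₂.pow_mem ha₂ _)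
  have e : algebraMap F₀ F (a ^ ℓ - b) =
      (θ ^ ℓ - algebraMap F₀ F b) - (θ ^ ℓ - (algebraMap F₀ F a) ^ ℓ) := by
    rw [map_sub, map_pow]
    ring
  rw [e]
  rw [ValuationSubring.mem_nonunits_iff] at h2 ⊢
  have h3 := T.hθ₂
  rw [ValuationSubring.mem_nonunits_iff] at h3
  exact lt_of_le_of_lt (Valuation.map_sub _ _ _) (max_lt h3 h2)

/-- **`f₁ = 1`**: every element of `O₁` is congruent mod `m₁` to an element of `Ov`. -/
theorem residue_one (T : TwoExt Ov O₁ O₂ ℓ θ a b) {x : F} (hx : x ∈ O₁) :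
    ∃ g ∈ Ov, x - algebraMap F₀ F g ∈ O₁.nonunits := by
  by_contra hno
  rw [not_exists] at hno
  have hno' : ∀ g ∈ Ov, x - algebraMap F₀ F g ∉ O₁.nonunits := fun g hg hh => hno g ⟨hg, hh⟩
  have := T.finiteDimensional
  obtain ⟨c, hc, hcu⟩ := T.infinite
  have := count_two T.over₁ T.over₂ T.ne c hc hcu (resIndep_pair T.over₁ hx hno') T.resIndep_pow₂
  rw [T.finrank_eq] at this
  omega

/-- **Only two extensions.** -/
theorem eq_or_eq (T : TwoExt Ov O₁ O₂ ℓ θ a b) {O' : ValuationSubring F}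
    (h' : LiesOverV Ov O') : O' = O₁ ∨ O' = O₂ := by
  by_contra hne
  rw [not_or] at hne
  have := T.finiteDimensional
  obtain ⟨c, hc, hcu⟩ := T.infinite
  have := count_three T.over₁ T.over₂ h' T.ne (fun h => hne.1 h.symm) (fun h => hne.2 h.symm)
    c hc hcu (resIndep_one T.over₁) T.resIndep_pow₂ (resIndep_one h')
  rw [T.finrank_eq] at this
  omega

/-- **`f₂ = ℓ`**: every element of `O₂` is congruent mod `m₂` to a combination of
`1, θ, …, θ ^ (ℓ - 1)` with coefficients in `Ov`. -/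
theorem residue_pow (T : TwoExt Ov O₁ O₂ ℓ θ a b) {x : F} (hx : x ∈ O₂) :
    ∃ g : Fin ℓ → F₀, (∀ i, g i ∈ Ov) ∧
      x - ∑ i, algebraMap F₀ F (g i) * θ ^ (i : ℕ) ∈ O₂.nonunits := by
  by_contra hno
  rw [not_exists] at hno
  have hno' : ∀ g : Fin ℓ → F₀, (∀ i, g i ∈ Ov) →
      x - ∑ i, algebraMap F₀ F (g i) * θ ^ (i : ℕ) ∉ O₂.nonunits :=
    fun g hg hh => hno g ⟨hg, hh⟩
  have := T.finiteDimensional
  obtain ⟨c, hc, hcu⟩ := T.infinite
  have := count_two T.over₁ T.over₂ T.ne c hc hcu (resIndep_one T.over₁)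
    (resIndep_snoc T.over₂ T.resIndep_pow₂ hx hno')
  rw [T.finrank_eq] at this
  omega

end TwoExt

end Fermat.Agent.BadRed
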