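/-
Cluster T (bad reduction at `q ∥ N`), piece BR1/M1 (helper50): **existence of the second
extension** (abstract, Chevalley + Gauss lemma).

`F / F₀` fields, `Ov` a valuation subring of `F₀`, `θ ∈ F` a root of a monic polynomial `C` with
coefficients in `Ov` such that `C ≡ (X - a) (X ^ ℓ - b)` modulo the maximal ideal, where the
residue of `b` is not an `ℓ`-th power (`ℓ` prime), and `θ ∉ F₀`.  Then there is a valuation subring
`O₂` of `F` lying over `Ov` with `θ ^ ℓ - b ∈ m₂`.

For `X₀(N ℓ) → X₀(N)`: `C` = the Kronecker polynomial (`Lib/BadRed/KroneckerCharpoly.lean`),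
`θ = j(q^ℓ)`, `a = j ^ ℓ`, `b = j`; `O₂` is the valuation `v_0`.
-/
import Mathlib
import Fermat.Agent.Lib.BadRed.TwoExt

set_option autoImplicit false

noncomputable section

namespace Fermat.Agent.BadRed

open scoped Classical
open Polynomial

variable {F₀ F : Type*} [Field F₀] [Field F] [Algebra F₀ F]

/-- a valuation subring containing `Ov` whose maximal ideal contains the maximal ideal of `Ov`
lies over `Ov`. -/
theorem liesOverV_of_le {Ov : ValuationSubring F₀} {V : ValuationSubring F}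
    (h1 : ∀ x ∈ Ov, algebraMap F₀ F x ∈ V)
    (h2 : ∀ x ∈ Ov.nonunits, algebraMap F₀ F x ∈ V.nonunits) : LiesOverV Ov V := by
  ext x
  constructor
  · intro hx
    have hx' : algebraMap F₀ F x ∈ V := hx
    by_contra hxO
    have hx0 : x ≠ 0 := by
      rintro rfl
      exact hxO Ov.zero_mem
    have hinv : x⁻¹ ∈ Ov.nonunits := by
      rw [ValuationSubring.mem_nonunits_iff_or, inv_inv]
      exact Or.inr hxO
    have h3 := mul_nonunits_mem hx' (h2 _ hinv)
    rw [← map_mul, mul_inv_cancel₀ hx0, map_one, ValuationSubring.mem_nonunits_iff, map_one] at h3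
    exact lt_irrefl _ h3
  · intro hx
    exact h1 x hx

/-- **Existence of the second extension.** -/
theorem exists_second_extension
    {Ov : ValuationSubring F₀} {ℓ : ℕ} (hℓ : ℓ.Prime) {θ : F} {a b : F₀}
    (ha : a ∈ Ov) (hb : b ∈ Ov)
    (C : F₀[X]) (hCm : C.Monic) (hCdeg : C.natDegree = ℓ + 1) (hCO : ∀ i, C.coeff i ∈ Ov)
    (hCcong : ∀ i,
      (C - (X - Polynomial.C a) * (X ^ ℓ - Polynomial.C b)).coeff i ∈ Ov.nonunits)
    (hCθ : C.eval₂ (algebraMap F₀ F) θ = 0)
    (hθ : ∀ x : F₀, algebraMap F₀ F x ≠ θ)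
    (hnp : ∀ u ∈ Ov, u ^ ℓ - b ∉ Ov.nonunits) :
    ∃ O₂ : ValuationSubring F, LiesOverV Ov O₂ ∧
      θ ^ ℓ - algebraMap F₀ F b ∈ O₂.nonunits := by
  -- the lift of `C`
  have hlift : C ∈ Polynomial.lifts (algebraMap Ov F₀) := by
    rw [Polynomial.lifts_iff_coeff_lifts]
    intro n
    exact ⟨⟨C.coeff n, hCO n⟩, rfl⟩
  obtain ⟨C₀, hC₀map, hC₀deg, hC₀m⟩ := Polynomial.lifts_and_natDegree_eq_and_monic hlift hCm
  have hC₀θ : Polynomial.aeval θ C₀ = 0 := by
    rw [Polynomial.aeval_def, IsScalarTower.algebraMap_eq Ov F₀ F, ← Polynomial.eval₂_map,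
      hC₀map]
    exact hCθ
  have hint : IsIntegral Ov θ := ⟨C₀, hC₀m, by rw [← Polynomial.aeval_def]; exact hC₀θ⟩
  -- the minimal polynomial over `Ov`
  set Q := minpoly Ov θ with hQ
  have hQm : Q.Monic := minpoly.monic hint
  obtain ⟨R, hR⟩ : Q ∣ C₀ := minpoly.isIntegrallyClosed_dvd hint hC₀θ
  -- residues
  set res := IsLocalRing.residue Ov with hres
  set bb := res ⟨b, hb⟩ with hbb
  set aa := res ⟨a, ha⟩ with haa
  set g : (IsLocalRing.ResidueField Ov)[X] := X ^ ℓ - Polynomial.C bb with hg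
  have hirr : Irreducible g := by
    apply X_pow_sub_C_irreducible_of_prime hℓ
    intro u hu
    obtain ⟨u, rfl⟩ := IsLocalRing.residue_surjective u
    apply hnp u u.2
    have h0 : IsLocalRing.residue Ov (u ^ ℓ - ⟨b, hb⟩) = 0 := by
      rw [map_sub, map_pow, hu, sub_self]
    rw [residue_eq_zero_iff_mem_nonunits] at h0
    exact h0
  have hgdeg : g.natDegree = ℓ := Polynomial.natDegree_X_pow_sub_C
  -- the congruence
  have hcong : C₀.map res = (X - Polynomial.C aa) * g := by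
    have h0 : (C₀ - (X - Polynomial.C (⟨a, ha⟩ : Ov)) *
        (X ^ ℓ - Polynomial.C (⟨b, hb⟩ : Ov))).map res = 0 := by
      ext i
      rw [Polynomial.coeff_map, Polynomial.coeff_zero, residue_eq_zero_iff_mem_nonunits]
      have e : (((C₀ - (X - Polynomial.C (⟨a, ha⟩ : Ov)) *
          (X ^ ℓ - Polynomial.C (⟨b, hb⟩ : Ov))).coeff i : Ov) : F₀) =
          (C - (X - Polynomial.C a) * (X ^ ℓ - Polynomial.C b)).coeff i := by
        rw [← hC₀map]
        have : (C₀.map (algebraMap Ov F₀) - (X - Polynomial.C a) * (X ^ ℓ - Polynomial.C b)) =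
            (C₀ - (X - Polynomial.C (⟨a, ha⟩ : Ov)) *
              (X ^ ℓ - Polynomial.C (⟨b, hb⟩ : Ov))).map (algebraMap Ov F₀) := by
          simp only [Polynomial.map_sub, Polynomial.map_mul, Polynomial.map_pow,
            Polynomial.map_X, Polynomial.map_C]
          rfl
        rw [this, Polynomial.coeff_map]
        rfl
      rw [e]
      exact hCcong i
    rw [Polynomial.map_sub, sub_eq_zero] at h0
    rw [h0]
    simp only [Polynomial.map_sub, Polynomial.map_mul, Polynomial.map_pow,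
      Polynomial.map_X, Polynomial.map_C, hg, haa, hbb]
  -- `g` divides the reduction of `Q`
  have hgQ : g ∣ Q.map res := by
    have hprod : Q.map res * R.map res = (X - Polynomial.C aa) * g := by
      rw [← Polynomial.map_mul, ← hR, hcong]
    have hdvd : g ∣ Q.map res * R.map res := by
      rw [hprod]
      exact dvd_mul_left _ _
    rcases hirr.prime.dvd_or_dvd hdvd with h | h
    · exact h
    · exfalso
      have hQ0 : Q.map res ≠ 0 := (hQm.map res).ne_zero
      have hR0 : R.map res ≠ 0 := by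
        intro h0
        rw [h0, mul_zero] at hprod
        have := (mul_eq_zero.mp hprod.symm)
        rcases this with h1 | h1
        · exact Polynomial.X_sub_C_ne_zero aa h1
        · exact hirr.ne_zero h1
      have hdegsum : (Q.map res).natDegree + (R.map res).natDegree = ℓ + 1 := by
        rw [← Polynomial.natDegree_mul hQ0 hR0, hprod,
          Polynomial.natDegree_mul (Polynomial.X_sub_C_ne_zero aa) hirr.ne_zero,
          Polynomial.natDegree_X_sub_C, hgdeg, add_comm]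
      have hRdeg : ℓ ≤ (R.map res).natDegree := by
        have := Polynomial.natDegree_le_of_dvd h hR0
        rwa [hgdeg] at this
      have hQdeg : Q.natDegree ≤ 1 := by
        rw [← hQm.natDegree_map res]
        omega
      have hQpos : 0 < Q.natDegree := minpoly.natDegree_pos hint
      have hQ1 : Q.natDegree = 1 := le_antisymm hQdeg hQpos
      obtain ⟨x, hx⟩ := minpoly.natDegree_eq_one_iff.mp hQ1
      exact hθ (x : F₀) hx
  -- the ring homomorphism `Ov[θ] → κ[X]/(g)`
  set i : Ov →+* AdjoinRoot g := (AdjoinRoot.of g).comp res with hi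
  have hev : Q.eval₂ i (AdjoinRoot.root g) = 0 := by
    rw [hi, ← Polynomial.eval₂_map, ← AdjoinRoot.algebraMap_eq, ← Polynomial.aeval_def,
      AdjoinRoot.aeval_eq, AdjoinRoot.mk_eq_zero]
    exact hgQ
  set φ₀ : AdjoinRoot Q →+* AdjoinRoot g := AdjoinRoot.lift i (AdjoinRoot.root g) hev with hφ₀
  set e := minpoly.equivAdjoin hint with he
  set φ : ↥(Algebra.adjoin Ov ({θ} : Set F)) →+* AdjoinRoot g :=
    φ₀.comp (e.symm : ↥(Algebra.adjoin Ov ({θ} : Set F)) →+* AdjoinRoot Q) with hφ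
  have hθmem : θ ∈ Algebra.adjoin Ov ({θ} : Set F) := Algebra.subset_adjoin rfl
  have hφθ : φ ⟨θ, hθmem⟩ = AdjoinRoot.root g := by
    have h1 : e (AdjoinRoot.root Q) = ⟨θ, hθmem⟩ := by
      rw [he, minpoly.coe_equivAdjoin, ← AdjoinRoot.mk_X]
      exact Subtype.ext AdjoinRoot.Minpoly.coe_toAdjoin_mk_X
    rw [hφ, RingHom.comp_apply, ← h1]
    have : (e.symm : ↥(Algebra.adjoin Ov ({θ} : Set F)) →+* AdjoinRoot Q)
        (e (AdjoinRoot.root Q)) = AdjoinRoot.root Q := e.symm_apply_apply _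
    rw [this, hφ₀, AdjoinRoot.lift_root]
  have hφalg : ∀ r : Ov, φ (algebraMap Ov _ r) = AdjoinRoot.of g (res r) := by
    intro r
    rw [hφ, RingHom.comp_apply]
    have : (e.symm : ↥(Algebra.adjoin Ov ({θ} : Set F)) →+* AdjoinRoot Q)
        (algebraMap Ov _ r) = algebraMap Ov _ r := e.symm.commutes r
    rw [this, AdjoinRoot.algebraMap_eq, hφ₀, AdjoinRoot.lift_of]
    rfl
  have : Nontrivial (AdjoinRoot g) := by
    apply AdjoinRoot.nontrivial
    rw [Polynomial.degree_X_pow_sub_C hℓ.pos]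
    exact_mod_cast hℓ.ne_zero
  -- the ideal
  set Bsub : Subring F := (Algebra.adjoin Ov ({θ} : Set F)).toSubring with hBsub
  let φ' : ↥Bsub →+* AdjoinRoot g := φ
  have hI : RingHom.ker φ' ≠ ⊤ := by
    intro htop
    have h1 : (1 : ↥Bsub) ∈ RingHom.ker φ' := by
      rw [htop]
      exact Submodule.mem_top
    rw [RingHom.mem_ker, map_one] at h1
    exact one_ne_zero h1
  obtain ⟨V, hBV, hIV⟩ := Ideal.image_subset_nonunits_valuationSubring (RingHom.ker φ') hI
  have key : ∀ y : ↥(Algebra.adjoin Ov ({θ} : Set F)), φ y = 0 → (y : F) ∈ V.nonunits := by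
    intro y hy
    apply hIV
    have hy' : (show ↥Bsub from y) ∈ RingHom.ker φ' := by
      rw [RingHom.mem_ker]
      exact hy
    exact ⟨_, hy', rfl⟩
  refine ⟨V, liesOverV_of_le ?_ ?_, ?_⟩
  · intro x hx
    apply hBV
    exact (Algebra.adjoin Ov ({θ} : Set F)).algebraMap_mem ⟨x, hx⟩
  · intro x hx
    have hxO : x ∈ Ov := Ov.nonunits_le hx
    have := key (algebraMap Ov ↥(Algebra.adjoin Ov ({θ} : Set F)) ⟨x, hxO⟩) (by
      rw [hφalg, hres, (residue_eq_zero_iff_mem_nonunits Ov ⟨x, hxO⟩).mpr hx, map_zero])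
    exact this
  · have := key ((⟨θ, hθmem⟩ : ↥(Algebra.adjoin Ov ({θ} : Set F))) ^ ℓ -
      algebraMap Ov ↥(Algebra.adjoin Ov ({θ} : Set F)) ⟨b, hb⟩) (by
      rw [map_sub, map_pow, hφθ, hφalg]
      have := AdjoinRoot.eval₂_root g
      rw [hg, Polynomial.eval₂_sub, Polynomial.eval₂_pow, Polynomial.eval₂_X,
        Polynomial.eval₂_C] at this
      exact this)
    exact this

/-- **The two-extension package from the Kronecker congruence**: given the first extension `O₁`
(with `θ ≡ a`), the second one exists. -/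
theorem exists_twoExt
    {Ov : ValuationSubring F₀} {O₁ : ValuationSubring F} (over₁ : LiesOverV Ov O₁)
    {ℓ : ℕ} (hℓ : ℓ.Prime) (hfin : Module.finrank F₀ F = ℓ + 1) {θ : F} {a b : F₀}
    (ha : a ∈ Ov) (hb : b ∈ Ov)
    (hθ₁ : θ - algebraMap F₀ F a ∈ O₁.nonunits)
    (C : F₀[X]) (hCm : C.Monic) (hCdeg : C.natDegree = ℓ + 1) (hCO : ∀ i, C.coeff i ∈ Ov)
    (hCcong : ∀ i,
      (C - (X - Polynomial.C a) * (X ^ ℓ - Polynomial.C b)).coeff i ∈ Ov.nonunits)
    (hCθ : C.eval₂ (algebraMap F₀ F) θ = 0)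
    (hθ : ∀ x : F₀, algebraMap F₀ F x ≠ θ)
    (hnp : ∀ u ∈ Ov, u ^ ℓ - b ∉ Ov.nonunits)
    (hinf : ∃ c : ℕ → F₀, (∀ m, c m ∈ Ov) ∧ ∀ m m', m ≠ m' → c m - c m' ∉ Ov.nonunits) :
    ∃ O₂ : ValuationSubring F, TwoExt Ov O₁ O₂ ℓ θ a b := by
  obtain ⟨O₂, over₂, hθ₂⟩ :=
    exists_second_extension hℓ ha hb C hCm hCdeg hCO hCcong hCθ hθ hnp
  exact ⟨O₂, ⟨over₁, over₂, hℓ, hfin, ha, hb, hθ₁, hθ₂, hnp, hinf⟩⟩

end Fermat.Agent.BadRed
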