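/-
Cluster T (bad reduction at `ℓ ∥ Nℓ`), piece M1 (helper50): the two-extension package for
`F_N ⊂ F_{Nℓ}` (via `heckeAlphaBar`), `ℓ ∤ N` prime, at a place `A` of `ℚ̄` over `ℓ`.

Inputs: the Kronecker congruence (`Lib/BadRed/KroneckerCharpoly.lean`, helper66), the degree
`[F_{Nℓ} : F_N] = ℓ + 1` (`Lib/Kronecker/NormProd.lean`) and four elementary facts on
`q`-expansions, bundled in `ModFactsAt` (proved in `Lib/BadRed/ModFacts.lean`, helper66).

Outputs:
* `exists_twoExt_modular`  : `∃ O₂, TwoExt O_v O_∞ O₂ ℓ (j(q^ℓ)) (j^ℓ) j`,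
* `residue_one_modular`    : every `x ∈ O_∞` is congruent mod `m_∞` to an element of `O_v`
  (the residue field of the Gauss valuation of `F_{Nℓ}` is the residue field of `F_N`).
-/
import Mathlib
import Fermat.Agent.Lib.BadRed.TwoExtExist
import Fermat.Agent.Lib.BadRed.KroneckerCharpoly
import Fermat.Agent.Lib.Kronecker.NormProd

set_option autoImplicit false
set_option linter.style.haveILetI false

noncomputable section

namespace Fermat.Agent.BadRed

open ModularCurve Fermat.Agent.GaussInt Polynomial Fermat.Agent.S24 Fermat.Agent.Kronecker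

local notation "Qb" => AlgebraicClosure ℚ

variable (N ℓ : ℕ) [NeZero N] [NeZero ℓ]

/-- `F_{Nℓ}` as an algebra over `F_N` through the inclusion `heckeAlphaBar`. -/
@[reducible] def algAlpha :
    Algebra ↥(modularFunctionFieldBar N) ↥(modularFunctionFieldBar (N * ℓ)) :=
  (heckeAlphaBar Qb N ℓ).toRingHom.toAlgebra

attribute [local instance] algAlpha

theorem algAlpha_algebraMap (x : ↥(modularFunctionFieldBar N)) :
    algebraMap ↥(modularFunctionFieldBar N) ↥(modularFunctionFieldBar (N * ℓ)) x =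
      heckeAlphaBar Qb N ℓ x := rfl

variable {ℓ}

/-- The elementary modular inputs of the two-extension theorem at a place `A` over `ℓ`. -/
structure ModFactsAt (hℓ : ℓ.Prime) (A : ValuationSubring Qb) (hA : A.LiesOverPrime ℓ) :
    Prop where
  /-- `O_∞ ∩ F_N = O_v` -/
  liesOver : ∀ x : ↥(modularFunctionFieldBar N),
    heckeAlphaBar Qb N ℓ x ∈ gaussOv (N * ℓ) hℓ A hA ↔ x ∈ gaussOv N hℓ A hA
  /-- `j(q^ℓ) ≡ j^ℓ` -/
  theta : heckeBetaBar Qb N ℓ (jBar N) - heckeAlphaBar Qb N ℓ (jBar N ^ ℓ) ∈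
    (gaussOv (N * ℓ) hℓ A hA).nonunits
  /-- the residue of `j` is not an `ℓ`-th power -/
  not_pow : ∀ u ∈ gaussOv N hℓ A hA, u ^ ℓ - jBar N ∉ (gaussOv N hℓ A hA).nonunits
  /-- the residue field is infinite -/
  infinite : ∃ c : ℕ → ↥(modularFunctionFieldBar N), (∀ m, c m ∈ gaussOv N hℓ A hA) ∧
    ∀ m m', m ≠ m' → c m - c m' ∉ (gaussOv N hℓ A hA).nonunits

variable {N}

theorem ModFactsAt.liesOverV {hℓ : ℓ.Prime} {A : ValuationSubring Qb} {hA : A.LiesOverPrime ℓ}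
    (h : ModFactsAt N hℓ A hA) :
    LiesOverV (gaussOv N hℓ A hA) (gaussOv (N * ℓ) hℓ A hA) := by
  refine SetLike.ext fun x => ?_
  rw [ValuationSubring.mem_comap, algAlpha_algebraMap]
  exact h.liesOver x

/-- **The two-extension package for `F_N ⊂ F_{Nℓ}`.** -/
theorem exists_twoExt_modular (hℓ : ℓ.Prime) (hℓN : ¬ ℓ ∣ N) {A : ValuationSubring Qb}
    {hA : A.LiesOverPrime ℓ} (h : ModFactsAt N hℓ A hA) :
    ∃ O₂ : ValuationSubring ↥(modularFunctionFieldBar (N * ℓ)),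
      TwoExt (gaussOv N hℓ A hA) (gaussOv (N * ℓ) hℓ A hA) O₂ ℓ
        (heckeBetaBar Qb N ℓ (jBar N)) (jBar N ^ ℓ) (jBar N) := by
  obtain ⟨C, hCm, hCdeg, hCO, hCcong, hCθ⟩ := kroneckerCharpoly N ℓ hℓN hℓ A hA
  have hj : jBar N ∈ gaussOv N hℓ A hA := jBar_mem_gaussOvS N hℓ A hA
  exact exists_twoExt h.liesOverV hℓ (finrank_heckeAlphaBar N ℓ hℓ hℓN).2
    ((gaussOv N hℓ A hA).pow_mem hj ℓ) hj h.theta C hCm hCdeg hCO hCcong hCθ
    (betaJNotMem N ℓ hℓ hℓN) h.not_pow h.infinite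

/-- **`f_∞ = 1`**: every element of the Gauss ring of `F_{Nℓ}` is congruent modulo its maximal
ideal to an element of the Gauss ring of `F_N`. -/
theorem residue_one_modular (hℓ : ℓ.Prime) (hℓN : ¬ ℓ ∣ N) {A : ValuationSubring Qb}
    {hA : A.LiesOverPrime ℓ} (h : ModFactsAt N hℓ A hA)
    {x : ↥(modularFunctionFieldBar (N * ℓ))} (hx : x ∈ gaussOv (N * ℓ) hℓ A hA) :
    ∃ g ∈ gaussOv N hℓ A hA,
      x - heckeAlphaBar Qb N ℓ g ∈ (gaussOv (N * ℓ) hℓ A hA).nonunits := by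
  obtain ⟨O₂, T⟩ := exists_twoExt_modular hℓ hℓN h
  exact T.residue_one hx

end Fermat.Agent.BadRed
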