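/-
Cluster T (helper66), `Lib/BadRed`: modular inputs for the two extensions of the Gauss valuation
(`TwoExtModular` of helper50).  `F₀ = F_N`, `F = F_{Nℓ}` along `heckeAlphaBar`, `A | ℓ`, `ℓ ∤ N`.

* `gaussSub_mono`, `gaussResFun_mono`     : the Gauss ring and its residue map are monotone in `F`;
* `alpha_mem_gaussOv_iff`, `liesOverV_gaussOv` : `O_∞ ∩ F_N = O_v`;
* `gaussResFun_alpha`                     : `ρ_∞ (α x) = ρ_v x`;
* `theta_mem_gaussOv`, `theta_sub_pow_mem_nonunits` : `θ = j(q^ℓ) ∈ O_∞`, `θ - j^ℓ ∈ m_∞`;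
* `isUnit_j_pow_sub_j`                    : `j^(ℓ²) - j` is a unit of `O_v`;
* `fullC_mul_char`                        : `F_k(N ℓ) = F_k(N)` in characteristic `ℓ`.
-/
import Mathlib
import Fermat.Agent.Lib.BadRed.KroneckerCharpoly
import Fermat.Agent.Lib.BadRed.FundIneq
import Fermat.Agent.Lib.BadRed.TwoExtModular

set_option autoImplicit false
set_option linter.style.haveILetI false
set_option linter.unusedSectionVars false

noncomputable section

namespace Fermat.Agent.BadRed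

open ModularCurve AlgebraicCurve Fermat.Agent.GaussInt Polynomial Fermat.Agent.Kronecker
  Fermat.Agent.F3G Fermat.Agent.S24 IntermediateField

section Mono

variable {K : Type*} [Field K] {A : ValuationSubring K}
  {F₁ F₂ : IntermediateField K (LaurentSeries K)}

theorem isPres_mono (h : F₁ ≤ F₂) {f : LaurentSeries K} {Y₁ Y₂ : LaurentSeries A}
    (hf : IsPres A F₁ f Y₁ Y₂) : IsPres A F₂ f Y₁ Y₂ :=
  ⟨h hf.mem₁, h hf.mem₂, hf.prim, hf.eq⟩

theorem gaussSub_mono (h : F₁ ≤ F₂) : gaussSub A F₁ ≤ gaussSub A F₂ := by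
  rintro f ⟨Y₁, Y₂, hf⟩
  exact ⟨Y₁, Y₂, isPres_mono h hf⟩

theorem gaussResFun_mono (h : F₁ ≤ F₂) {f : LaurentSeries K} (hf : f ∈ gaussSub A F₁) :
    gaussResFun A F₂ f = gaussResFun A F₁ f := by
  obtain ⟨Y₁, Y₂, hp⟩ := hf
  rw [gaussResFun_eq hp, gaussResFun_eq (isPres_mono h hp)]

end Mono


section Modular

variable (N ℓ : ℕ) [NeZero N] [NeZero ℓ] (hℓ : ℓ.Prime)
  (A : ValuationSubring Qb) (hA : A.LiesOverPrime ℓ)

theorem fullBar_le_mul : modularFunctionFieldBar N ≤ modularFunctionFieldBar (N * ℓ) := by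
  intro x hx
  have h := (heckeAlphaBar Qb N ℓ ⟨x, hx⟩).2
  rwa [coe_heckeAlphaBar] at h

variable {N ℓ}

/-- `ρ_∞ (α x) = ρ_v x`. -/
theorem gaussResFun_alpha {x : ↥(modularFunctionFieldBar N)} (hx : x ∈ gaussOv N hℓ A hA) :
    gaussResFun A (modularFunctionFieldBar (N * ℓ))
        ((heckeAlphaBar Qb N ℓ x : ↥(modularFunctionFieldBar (N * ℓ))) : LaurentSeries Qb) =
      gaussResFun A (modularFunctionFieldBar N) (x : LaurentSeries Qb) := by
  rw [coe_heckeAlphaBar]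
  exact gaussResFun_mono (fullBar_le_mul N ℓ) hx

/-- `O_∞ ∩ F_N = O_v`. -/
theorem alpha_mem_gaussOv_iff (x : ↥(modularFunctionFieldBar N)) :
    heckeAlphaBar Qb N ℓ x ∈ gaussOv (N * ℓ) hℓ A hA ↔ x ∈ gaussOv N hℓ A hA := by
  constructor
  · intro h
    by_contra hx
    have hx0 : x ≠ 0 := fun h0 => hx (h0 ▸ (gaussOv N hℓ A hA).zero_mem)
    have hinv : x⁻¹ ∈ gaussOv N hℓ A hA :=
      ((gaussOv N hℓ A hA).mem_or_inv_mem x).resolve_left hx
    have hres : gaussResFun A (modularFunctionFieldBar N)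
        ((x⁻¹ : ↥(modularFunctionFieldBar N)) : LaurentSeries Qb) = 0 := by
      by_contra hne
      apply hx
      have := inv_mem_gaussSub (F := modularFunctionFieldBar N) hinv hne
      show (x : LaurentSeries Qb) ∈ gaussSub A (modularFunctionFieldBar N)
      have e : (((x⁻¹ : ↥(modularFunctionFieldBar N)) : LaurentSeries Qb))⁻¹ =
          (x : LaurentSeries Qb) := by
        rw [← IntermediateField.coe_inv, inv_inv]
      rwa [e] at this
    have h1 : (x : LaurentSeries Qb) ∈ gaussSub A (modularFunctionFieldBar (N * ℓ)) := by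
      have := h
      rwa [← coe_heckeAlphaBar (L := Qb) (N := N) (ℓ := ℓ) x]
    have h2 : ((x⁻¹ : ↥(modularFunctionFieldBar N)) : LaurentSeries Qb) ∈
        gaussSub A (modularFunctionFieldBar (N * ℓ)) := gaussSub_mono (fullBar_le_mul N ℓ) hinv
    have hmul : gaussRes A (modularFunctionFieldBar (N * ℓ)) (⟨_, h1⟩ * ⟨_, h2⟩) = 1 := by
      have : (⟨_, h1⟩ * ⟨_, h2⟩ : gaussSub A (modularFunctionFieldBar (N * ℓ))) = 1 := by
        apply Subtype.ext
        show (x : LaurentSeries Qb) * ((x⁻¹ : ↥(modularFunctionFieldBar N)) : LaurentSeries Qb) = 1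
        rw [← MulMemClass.coe_mul, mul_inv_cancel₀ hx0]
        rfl
      rw [this, map_one]
    rw [map_mul] at hmul
    have h3 : gaussRes A (modularFunctionFieldBar (N * ℓ)) ⟨_, h2⟩ = 0 := by
      rw [gaussRes_apply]
      show gaussResFun A (modularFunctionFieldBar (N * ℓ))
        ((x⁻¹ : ↥(modularFunctionFieldBar N)) : LaurentSeries Qb) = 0
      rw [gaussResFun_mono (fullBar_le_mul N ℓ) hinv, hres]
    rw [h3, mul_zero] at hmul
    exact zero_ne_one hmul
  · intro h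
    show ((heckeAlphaBar Qb N ℓ x : ↥(modularFunctionFieldBar (N * ℓ))) : LaurentSeries Qb) ∈
      gaussSub A (modularFunctionFieldBar (N * ℓ))
    rw [coe_heckeAlphaBar]
    exact gaussSub_mono (fullBar_le_mul N ℓ) h

set_option maxHeartbeats 1000000 in
/-- `O_∞` lies over `O_v` (along `heckeAlphaBar`). -/
theorem liesOverV_gaussOv :
    @LiesOverV _ _ _ _ (algebraAlong (heckeAlphaBar Qb N ℓ))
      (gaussOv N hℓ A hA) (gaussOv (N * ℓ) hℓ A hA) := by
  letI := algebraAlong (heckeAlphaBar Qb N ℓ)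
  unfold LiesOverV
  apply SetLike.ext
  intro x
  rw [ValuationSubring.mem_comap]
  exact alpha_mem_gaussOv_iff hℓ A hA x

/-- `θ = j(q^ℓ)` as an integral series. -/
theorem emb_qExpand_jqModC :
    emb A (qExpand A ℓ (jqModC A)) =
      ((heckeBetaBar Qb N ℓ (jBar N) : ↥(modularFunctionFieldBar (N * ℓ))) : LaurentSeries Qb) := by
  rw [coe_heckeBetaBar, coe_jBar_eq_jqModC]
  show coeffMap A.subtype (qExpand A ℓ (jqModC A)) = _
  rw [coeffMap_qExpand, coeffMap_jqModC]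

/-- `θ ∈ O_∞`. -/
theorem theta_mem_gaussOv :
    heckeBetaBar Qb N ℓ (jBar N) ∈ gaussOv (N * ℓ) hℓ A hA := by
  show ((heckeBetaBar Qb N ℓ (jBar N) : ↥(modularFunctionFieldBar (N * ℓ))) : LaurentSeries Qb) ∈
    gaussSub A (modularFunctionFieldBar (N * ℓ))
  rw [← emb_qExpand_jqModC (N := N) A]
  exact emb_mem_gaussSub (by rw [emb_qExpand_jqModC (N := N) A]; exact Subtype.mem _)

/-- **(b)** `θ - α(j^ℓ) ∈ m_∞`. -/
theorem theta_sub_pow_mem_nonunits :
    heckeBetaBar Qb N ℓ (jBar N) - heckeAlphaBar Qb N ℓ (jBar N ^ ℓ) ∈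
      (gaussOv (N * ℓ) hℓ A hA).nonunits := by
  set Y : LaurentSeries A := qExpand A ℓ (jqModC A) - jqModC A ^ ℓ with hY
  have hemb : emb A Y = ((heckeBetaBar Qb N ℓ (jBar N) - heckeAlphaBar Qb N ℓ (jBar N ^ ℓ) :
      ↥(modularFunctionFieldBar (N * ℓ))) : LaurentSeries Qb) := by
    rw [hY, map_sub, map_pow, emb_qExpand_jqModC (N := N) A]
    show _ = ((heckeBetaBar Qb N ℓ (jBar N) : ↥(modularFunctionFieldBar (N * ℓ))) :
      LaurentSeries Qb) - ((heckeAlphaBar Qb N ℓ (jBar N ^ ℓ) :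
      ↥(modularFunctionFieldBar (N * ℓ))) : LaurentSeries Qb)
    rw [coe_heckeAlphaBar]
    congr 1
    show coeffMap A.subtype (jqModC A) ^ ℓ = ((jBar N ^ ℓ : ↥(modularFunctionFieldBar N)) :
      LaurentSeries Qb)
    rw [coeffMap_jqModC, ← coe_jBar_eq_jqModC N]
    rfl
  have hred : red A Y = 0 := by
    rw [hY, map_sub, map_pow]
    show coeffMap (IsLocalRing.residue A) (qExpand A ℓ (jqModC A)) -
      coeffMap (IsLocalRing.residue A) (jqModC A) ^ ℓ = 0
    rw [coeffMap_qExpand, coeffMap_jqModC, kc_qExpand_jbar A hℓ hA, sub_self]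
  have hmem : heckeBetaBar Qb N ℓ (jBar N) - heckeAlphaBar Qb N ℓ (jBar N ^ ℓ) ∈
      gaussOvS (N * ℓ) hℓ A hA := mem_gaussOvS_of_emb (N * ℓ) hℓ A hA hemb
  have hzero : gaussOvRes (N * ℓ) hℓ A hA ⟨_, hmem⟩ = 0 := by
    rw [gaussOvRes_of_emb (N * ℓ) hℓ A hA (f := ⟨_, hmem⟩) hemb, hred]
  have hnu := (gaussOvRes_eq_zero_iff (N * ℓ) hℓ A hA _).mp hzero
  rw [ValuationSubring.mem_nonunits_iff_exists_mem_maximalIdeal]
  exact ⟨hmem, (IsLocalRing.mem_maximalIdeal _).mpr hnu⟩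

/-- an element of `O_v` with nonzero residue is not in `m_v`. -/
theorem not_mem_nonunits_of_res_ne_zero (f : ↥(gaussOvS N hℓ A hA))
    (hf : gaussOvRes N hℓ A hA f ≠ 0) :
    (f : ↥(modularFunctionFieldBar N)) ∉ (gaussOv N hℓ A hA).nonunits := by
  intro h
  rw [ValuationSubring.mem_nonunits_iff_exists_mem_maximalIdeal] at h
  obtain ⟨h1, h2⟩ := h
  apply hf
  rw [gaussOvRes_eq_zero_iff]
  have h3 := (IsLocalRing.mem_maximalIdeal (R := ↥(gaussOv N hℓ A hA)) _).mp h2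
  exact h3

include hℓ hA in
/-- `j̄` is not an `ℓ`-th power in `k((q))`. -/
theorem jbar_ne_pow (z : LaurentSeries (IsLocalRing.ResidueField A)) :
    z ^ ℓ ≠ jqModC (IsLocalRing.ResidueField A) := by
  have : Fact ℓ.Prime := ⟨hℓ⟩
  have : CharP (IsLocalRing.ResidueField A) ℓ := charP_residueField_of_liesOverPrime A ℓ hℓ hA
  intro h
  have h1 : (z ^ ℓ).coeff (-1 : ℤ) = (jqModC (IsLocalRing.ResidueField A)).coeff (-1 : ℤ) := by
    rw [h]
  rw [pow_char_eq_qExpand_frobenius ℓ, coeff_jqModC_neg_one] at h1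
  rw [qExpand_coeff_of_not_dvd] at h1
  · exact zero_ne_one h1
  · intro hdvd
    have h2 : (ℓ : ℤ) ∣ 1 := (Int.dvd_neg).mp hdvd
    have h3 : ℓ ∣ 1 := Int.natCast_dvd_natCast.mp (by exact_mod_cast h2)
    exact hℓ.one_lt.ne' (Nat.dvd_one.mp h3)

/-- **(c')** `j̄` is not an `ℓ`-th power in the residue field: `u^ℓ - j ∉ m_v` for `u ∈ O_v`. -/
theorem pow_sub_j_not_mem_nonunits (u : ↥(modularFunctionFieldBar N))
    (hu : u ∈ gaussOv N hℓ A hA) :
    u ^ ℓ - jBar N ∉ (gaussOv N hℓ A hA).nonunits := by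
  set uO : ↥(gaussOvS N hℓ A hA) := ⟨u, hu⟩ with huO
  set jO : ↥(gaussOvS N hℓ A hA) := ⟨jBar N, jBar_mem_gaussOvS N hℓ A hA⟩ with hjO
  have h := not_mem_nonunits_of_res_ne_zero hℓ A hA (uO ^ ℓ - jO) (by
    rw [map_sub, map_pow, hjO, gaussOvRes_jBar, sub_ne_zero]
    exact jbar_ne_pow hℓ A hA _)
  exact h

/-- **(c)** `j^(ℓ²) - j` is not in `m_v`. -/
theorem j_pow_sub_j_not_mem_nonunits :
    (jBar N ^ ℓ) ^ ℓ - jBar N ∉ (gaussOv N hℓ A hA).nonunits :=
  pow_sub_j_not_mem_nonunits hℓ A hA _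
    ((gaussOv N hℓ A hA).pow_mem (jBar_mem_gaussOvS N hℓ A hA) ℓ)

/-- `ℕ`-indexed elements of `A` with pairwise distinct residues. -/
theorem exists_nodes_nat : ∃ a : ℕ → A, Function.Injective fun i => IsLocalRing.residue A (a i) := by
  haveI : IsAlgClosed (IsLocalRing.ResidueField A) :=
    Fermat.Agent.FrobTrace.isAlgClosed_residueField A
  haveI : Infinite (IsLocalRing.ResidueField A) := IsAlgClosed.instInfinite
  let e : ℕ ↪ IsLocalRing.ResidueField A := Infinite.natEmbedding _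
  choose g hg using fun x : IsLocalRing.ResidueField A => IsLocalRing.residue_surjective x
  refine ⟨fun i => g (e i), ?_⟩
  intro i j hij
  simp only [hg] at hij
  exact e.injective hij

/-- **(e)** constants with pairwise distinct residues. -/
theorem exists_constants :
    ∃ c : ℕ → ↥(modularFunctionFieldBar N), (∀ m, c m ∈ gaussOv N hℓ A hA) ∧
      ∀ m m', m ≠ m' → c m - c m' ∉ (gaussOv N hℓ A hA).nonunits := by
  obtain ⟨a, ha⟩ := exists_nodes_nat A
  refine ⟨fun m => algebraMap Qb ↥(modularFunctionFieldBar N) ((a m : A) : Qb),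
    fun m => const_mem_gaussOvS N hℓ A hA (a m), ?_⟩
  intro m m' hmm
  have h := not_mem_nonunits_of_res_ne_zero hℓ A hA
    ((⟨_, const_mem_gaussOvS N hℓ A hA (a m)⟩ : ↥(gaussOvS N hℓ A hA)) -
      ⟨_, const_mem_gaussOvS N hℓ A hA (a m')⟩) (by
    rw [map_sub, gaussOvRes_const, gaussOvRes_const, sub_ne_zero]
    intro h
    exact hmm (ha ((algebraMap _ _).injective h)))
  exact h

/-- The four elementary modular inputs of the two-extension theorem (helper50's `ModFactsAt`). -/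
theorem modFactsAt (N ℓ : ℕ) [NeZero N] [NeZero ℓ] (hℓ : ℓ.Prime) (hℓN : ¬ ℓ ∣ N)
    (A : ValuationSubring Qb) (hA : A.LiesOverPrime ℓ) : ModFactsAt N hℓ A hA where
  liesOver := alpha_mem_gaussOv_iff hℓ A hA
  theta := theta_sub_pow_mem_nonunits hℓ A hA
  not_pow := pow_sub_j_not_mem_nonunits hℓ A hA
  infinite := exists_constants hℓ A hA

end Modular

end Fermat.Agent.BadRed
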