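/-
G sprint (S36), W-P / WP-OLD, seat KC-GEN.  Owner: helper23.

**(K)** the GENERAL Kronecker congruence for characteristic polynomials: for EVERY Gauss-integral
`g ∈ F_N` (any coefficients), the characteristic polynomial `C_g` of `θ_g = g(q^ℓ)` over `F_N`
(`ℓ ∤ N`, along `heckeAlphaBar`) is monic of degree `ℓ + 1`, has coefficients in the Gauss ring
`O_v` and reduces to

    `(X - ḡ(q^ℓ)) (X^ℓ - τ ḡ)`,      `ḡ(q^ℓ) = qExpand ℓ ḡ = (τ⁻¹ ḡ)^ℓ`,

`ḡ = ρ(g)` the reduction, `τ` the coefficientwise Frobenius of `k((q))`.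
(`Lib/BadRed/KroneckerCharpoly.lean` is the case `g = j`.)

* `kcg_heckeFun`        : `ρ(T_ℓ f) = f̄(q^ℓ) · τ f̄` for every Gauss-integral `f` (no Frobenius
                          element needed);
* `KroneckerCharpolyGen`: the statement (K);   `kroneckerCharpolyGen : ¬ ℓ ∣ N → KroneckerCharpolyGen N ℓ`.
-/
import Mathlib
import Fermat.Agent.Lib.BadRed.KroneckerCharpoly

set_option autoImplicit false
set_option linter.style.haveILetI false
set_option linter.unusedSectionVars false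

noncomputable section

namespace Fermat.Agent.BadRed

open ModularCurve AlgebraicCurve Fermat.Agent.GaussInt Polynomial Fermat.Agent.Kronecker
  Fermat.Agent.F3G Fermat.Agent.S24 Fermat.Agent.S24.EmbFHom
open scoped MatrixGroups

variable (N ℓ : ℕ) [NeZero N] [NeZero ℓ]

/-- **Kronecker congruence, intrinsic form**: for every Gauss-integral `f ∈ F_N`,
`T_ℓ f = Norm (f(q^ℓ))` is Gauss-integral and `ρ(T_ℓ f) = f̄(q^ℓ) · τ f̄`. -/
theorem kcg_heckeFun [Fact ℓ.Prime] (hℓN : ¬ ℓ ∣ N) (A : ValuationSubring Qb)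
    [CharP (IsLocalRing.ResidueField A) ℓ] (f : ↥(modularFunctionFieldBar N))
    (hf : (f : LaurentSeries Qb) ∈ gaussSub A (modularFunctionFieldBar N)) :
    ((heckeFun Qb N ℓ f : ↥(modularFunctionFieldBar N)) : LaurentSeries Qb) ∈
        gaussSub A (modularFunctionFieldBar N) ∧
      gaussResFun A (modularFunctionFieldBar N)
          ((heckeFun Qb N ℓ f : ↥(modularFunctionFieldBar N)) : LaurentSeries Qb) =
        qExpand (IsLocalRing.ResidueField A) ℓ
            (gaussResFun A (modularFunctionFieldBar N) (f : LaurentSeries Qb)) *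
          coeffMap (frobenius (IsLocalRing.ResidueField A) ℓ)
            (gaussResFun A (modularFunctionFieldBar N) (f : LaurentSeries Qb)) := by
  have hℓ : ℓ.Prime := Fact.out
  set k := IsLocalRing.ResidueField A with hk
  obtain ⟨Y1, Y2, hpres⟩ := hf
  obtain ⟨Z1, hZ1, hZ1r⟩ := kronecker_integral N ℓ (normProductFormula N ℓ hℓ hℓN) A Y1 hpres.mem₁
  obtain ⟨Z2, hZ2, hZ2r⟩ := kronecker_integral N ℓ (normProductFormula N ℓ hℓ hℓN) A Y2 hpres.mem₂
  have hfrobinj : Function.Injective (coeffMap (frobenius k ℓ)) :=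
    coeffMap_injective' _ (frobenius_inj k ℓ)
  have hY2 : red A Y2 ≠ 0 := hpres.prim
  have hq2 : qExpand k ℓ (red A Y2) ≠ 0 := fun h0 =>
    hY2 (qExpand_injective (R := k) ℓ (by rw [h0, map_zero]))
  have hf2 : coeffMap (frobenius k ℓ) (red A Y2) ≠ 0 := fun h0 =>
    hY2 (hfrobinj (by rw [h0, map_zero]))
  have hmul : f * (⟨emb A Y2, hpres.mem₂⟩ : ↥(modularFunctionFieldBar N)) =
      ⟨emb A Y1, hpres.mem₁⟩ := Subtype.ext hpres.eq
  have hpres' : IsPres A (modularFunctionFieldBar N)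
      ((heckeFun Qb N ℓ f : ↥(modularFunctionFieldBar N)) : LaurentSeries Qb) Z1 Z2 := by
    refine ⟨by rw [hZ1]; exact Subtype.mem _, by rw [hZ2]; exact Subtype.mem _, ?_, ?_⟩
    · rw [hZ2r]
      exact mul_ne_zero hq2 hf2
    · rw [hZ1, hZ2, ← hmul, map_mul]
      rfl
  refine ⟨hpres'.mem_gaussSub, ?_⟩
  rw [gaussResFun_eq hpres', hZ1r, hZ2r, gaussResFun_eq hpres, map_div₀, map_div₀,
    div_mul_div_comm]

section Main

variable {ℓ}
variable (hℓ : ℓ.Prime) (A : ValuationSubring Qb) (hA : A.LiesOverPrime ℓ)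
variable [Fact ℓ.Prime] [CharP (IsLocalRing.ResidueField A) ℓ]

/-- the reduction `ḡ(q^ℓ)` of `g(q^ℓ)` -/
def kcgBeta (g : ↥(gaussOvS N hℓ A hA)) : LaurentSeries (IsLocalRing.ResidueField A) :=
  qExpand (IsLocalRing.ResidueField A) ℓ (gaussOvRes N hℓ A hA g)

/-- the coefficientwise Frobenius twist `τ ḡ` of the reduction of `g` -/
def kcgFrob (g : ↥(gaussOvS N hℓ A hA)) : LaurentSeries (IsLocalRing.ResidueField A) :=
  coeffMap (frobenius (IsLocalRing.ResidueField A) ℓ) (gaussOvRes N hℓ A hA g)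

/-- the reduced polynomial `(X - ḡ(q^ℓ)) (X^ℓ - τ ḡ)` -/
def kcgPoly (g : ↥(gaussOvS N hℓ A hA)) : (LaurentSeries (IsLocalRing.ResidueField A))[X] :=
  (X - Polynomial.C (kcgBeta N hℓ A hA g)) * (X ^ ℓ - Polynomial.C (kcgFrob N hℓ A hA g))

theorem kcgBeta_eq_pow (g : ↥(gaussOvS N hℓ A hA)) (h : LaurentSeries (IsLocalRing.ResidueField A))
    (hh : coeffMap (frobenius (IsLocalRing.ResidueField A) ℓ) h = gaussOvRes N hℓ A hA g) :
    kcgBeta N hℓ A hA g = h ^ ℓ := by
  rw [kcgBeta, ← hh, ← pow_char_eq_qExpand_frobenius ℓ]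

theorem kcgPoly_natDegree_le (g : ↥(gaussOvS N hℓ A hA)) :
    (kcgPoly N hℓ A hA g).natDegree ≤ ℓ + 1 := by
  rw [kcgPoly]
  refine le_trans Polynomial.natDegree_mul_le ?_
  have h1 : (X - Polynomial.C (kcgBeta N hℓ A hA g)).natDegree ≤ 1 := by
    rw [Polynomial.natDegree_X_sub_C]
  have h2 : (X ^ ℓ - Polynomial.C (kcgFrob N hℓ A hA g)).natDegree ≤ ℓ := by
    rw [Polynomial.natDegree_X_pow_sub_C]
  omega

end Main

/-- **(K)** the general Kronecker congruence for the characteristic polynomial of `g(q^ℓ)` over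
`F_N`, for every Gauss-integral `g`: there is `P ∈ O_v[X]`, monic of degree `ℓ + 1`, which maps to
the characteristic polynomial of `heckeBetaBar g` along `heckeAlphaBar` and reduces to
`(X - ḡ(q^ℓ)) (X^ℓ - τ ḡ)`. -/
def KroneckerCharpolyGen (N ℓ : ℕ) [NeZero N] [NeZero ℓ] [Fact ℓ.Prime] : Prop :=
  ∀ (hℓ : ℓ.Prime) (A : ValuationSubring Qb) (hA : A.LiesOverPrime ℓ)
    [CharP (IsLocalRing.ResidueField A) ℓ]
    (hfin : FiniteAlong Qb (heckeAlphaBar Qb N ℓ)) (g : ↥(gaussOvS N hℓ A hA)),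
    ∃ P : (↥(gaussOvS N hℓ A hA))[X],
      P.Monic ∧ P.natDegree = ℓ + 1 ∧
      P.map (gaussOvS N hℓ A hA).subtype =
        charpolyAlong (heckeAlphaBar Qb N ℓ) hfin
          (heckeBetaBar Qb N ℓ (g : ↥(modularFunctionFieldBar N))) ∧
      P.map (gaussOvRes N hℓ A hA) = kcgPoly N hℓ A hA g

section KC

variable {ℓ}

theorem kcg_algebraMap_qExpand (k : Type*) [Field k] (c : k) :
    qExpand k ℓ (algebraMap k (LaurentSeries k) c) = algebraMap k (LaurentSeries k) c := by
  rw [algebraMap_laurentSeries_eq_single, qExpand_single, mul_zero]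

theorem kcg_algebraMap_frob (k : Type*) [Field k] [Fact ℓ.Prime] [CharP k ℓ] (c : k) :
    coeffMap (frobenius k ℓ) (algebraMap k (LaurentSeries k) c) =
      algebraMap k (LaurentSeries k) (c ^ ℓ) := by
  rw [algebraMap_laurentSeries_eq_single, algebraMap_laurentSeries_eq_single, coeffMap_single]
  rfl

set_option maxHeartbeats 1000000 in
set_option synthInstance.maxHeartbeats 400000 in
/-- **(K)** the general Kronecker congruence for characteristic polynomials. -/
theorem kroneckerCharpolyGen [Fact ℓ.Prime] (hℓN : ¬ ℓ ∣ N) : KroneckerCharpolyGen N ℓ := by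
  intro hℓ A hA _ hfin
  classical
  set k := IsLocalRing.ResidueField A with hk
  set O := gaussOvS N hℓ A hA with hO
  set ρ := gaussOvRes N hℓ A hA with hρ
  intro g
  have hrank : finrankAlong Qb (heckeAlphaBar Qb N ℓ) = ℓ + 1 :=
    (finrank_heckeAlphaBar N ℓ hℓ hℓN).2
  set θ := heckeBetaBar Qb N ℓ (g : ↥(modularFunctionFieldBar N)) with hθ
  set C := charpolyAlong (heckeAlphaBar Qb N ℓ) hfin θ with hC
  have hCm : C.Monic := charpolyAlong_monic _ _ _
  have hCd : C.natDegree = ℓ + 1 := by rw [hC, charpolyAlong_natDegree, hrank]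
  -- the nodes
  obtain ⟨a, ha⟩ := exists_nodes A (ℓ + 1 + 1)
  let c : Fin (ℓ + 1 + 1) → ↥(modularFunctionFieldBar N) :=
    fun i => algebraMap Qb ↥(modularFunctionFieldBar N) ((a i : A) : Qb)
  have hcO : ∀ i, c i ∈ O := fun i => const_mem_gaussOvS N hℓ A hA (a i)
  have hcinj : Function.Injective c := by
    intro i j hij
    apply ha
    have h1 : ((a i : A) : Qb) = ((a j : A) : Qb) :=
      (algebraMap Qb ↥(modularFunctionFieldBar N)).injective hij
    show IsLocalRing.residue A (a i) = IsLocalRing.residue A (a j)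
    rw [Subtype.ext h1]
  have hunit : ∀ i j, i ≠ j → (c i - c j)⁻¹ ∈ O := by
    intro i j hij
    have hne : IsLocalRing.residue A (a i - a j) ≠ 0 := by
      rw [map_sub, sub_ne_zero]
      exact fun h => hij (ha h)
    have hu : IsUnit (a i - a j) := by
      by_contra hnu
      exact hne ((IsLocalRing.residue_eq_zero_iff _).mpr ((IsLocalRing.mem_maximalIdeal _).mpr hnu))
    obtain ⟨u, hu⟩ := hu
    have h1 : (c i - c j)⁻¹ =
        algebraMap Qb ↥(modularFunctionFieldBar N) (((u⁻¹ : (↥A)ˣ) : A) : Qb) := by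
      rw [← map_sub, ← map_inv₀]
      congr 1
      have h2 : ((u : A) : Qb) * (((u⁻¹ : (↥A)ˣ) : A) : Qb) = 1 := by
        rw [← MulMemClass.coe_mul, Units.mul_inv]; rfl
      have h3 : ((a i : A) : Qb) - ((a j : A) : Qb) = ((u : A) : Qb) := by
        rw [hu]; rfl
      rw [h3]
      exact (eq_inv_of_mul_eq_one_right h2).symm
    rw [h1]
    exact const_mem_gaussOvS N hℓ A hA _
  -- values: `C (c i) = T_ℓ (c i - g)`
  have hev : ∀ i, C.eval (c i) = heckeFun Qb N ℓ (c i - (g : ↥(modularFunctionFieldBar N))) := by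
    intro i
    rw [hC, hθ, eval_charpolyAlong_const]
    rfl
  have hsubO : ∀ i, c i - (g : ↥(modularFunctionFieldBar N)) ∈ O := fun i =>
    O.sub_mem (hcO i) g.2
  have hK : ∀ i, _ := fun i =>
    kcg_heckeFun N ℓ hℓN A (c i - (g : ↥(modularFunctionFieldBar N))) (hsubO i)
  have hval : ∀ i, C.eval (c i) ∈ O := fun i => by
    rw [hev]
    exact (hK i).1
  have hρsub : ∀ i, gaussResFun A (modularFunctionFieldBar N)
      (((c i - (g : ↥(modularFunctionFieldBar N)) : ↥(modularFunctionFieldBar N))) :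
        LaurentSeries Qb) =
      algebraMap k (LaurentSeries k) (IsLocalRing.residue A (a i)) - ρ g := by
    intro i
    have h1 : ρ (⟨c i, hcO i⟩ - g) = ρ ⟨c i, hcO i⟩ - ρ g := map_sub ρ _ _
    rw [hρ, gaussOvRes_const] at h1
    rw [← h1]
    rfl
  have hvalr : ∀ i, ρ ⟨C.eval (c i), hval i⟩ =
      (algebraMap k (LaurentSeries k) (IsLocalRing.residue A (a i)) - kcgBeta N hℓ A hA g) *
        (algebraMap k (LaurentSeries k) (IsLocalRing.residue A (a i) ^ ℓ) -
          kcgFrob N hℓ A hA g) := by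
    intro i
    have h1 : ρ ⟨C.eval (c i), hval i⟩ =
        gaussResFun A (modularFunctionFieldBar N)
          ((heckeFun Qb N ℓ (c i - (g : ↥(modularFunctionFieldBar N))) :
            ↥(modularFunctionFieldBar N)) : LaurentSeries Qb) := by
      rw [hρ, gaussOvRes_apply]
      show gaussResFun A (modularFunctionFieldBar N)
        ((C.eval (c i) : ↥(modularFunctionFieldBar N)) : LaurentSeries Qb) = _
      rw [hev]
    rw [h1, (hK i).2, hρsub, map_sub, map_sub, kcg_algebraMap_qExpand, kcg_algebraMap_frob]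
    rfl
  obtain ⟨P, hP⟩ := exists_lift_of_eval_mem O C (ℓ + 1) (le_of_eq hCd) c hcinj hcO hunit hval
  have hPdeg' : P.natDegree = ℓ + 1 := by
    rw [← hCd, ← hP]
    exact (Polynomial.natDegree_map_eq_of_injective Subtype.val_injective P).symm
  have hPm : P.Monic := by
    have h1 : (P.map O.subtype).Monic := by rw [hP]; exact hCm
    exact Polynomial.monic_of_injective Subtype.val_injective h1
  refine ⟨P, hPm, hPdeg', hP, ?_⟩
  refine map_eq_of_eval_eq O ρ P (ℓ + 1) (le_of_eq hPdeg') (fun i => ⟨c i, hcO i⟩) ?_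
    (kcgPoly N hℓ A hA g) (kcgPoly_natDegree_le N hℓ A hA g) ?_
  · intro i j hij
    simp only at hij
    rw [hρ, gaussOvRes_const, gaussOvRes_const] at hij
    exact ha ((algebraMap k (LaurentSeries k)).injective hij)
  · intro i
    have hevP : (P.eval (⟨c i, hcO i⟩ : ↥O)) = ⟨C.eval (c i), hval i⟩ := by
      apply Subtype.ext
      show ((P.eval (⟨c i, hcO i⟩ : ↥O) : ↥O) : ↥(modularFunctionFieldBar N)) = C.eval (c i)
      rw [← hP, Polynomial.eval_map]
      exact (Polynomial.hom_eval₂ P (RingHom.id _) O.subtype ⟨c i, hcO i⟩)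
    rw [hevP, hvalr, hρ, gaussOvRes_const, kcgPoly, Polynomial.eval_mul, Polynomial.eval_sub,
      Polynomial.eval_sub, Polynomial.eval_X, Polynomial.eval_pow, Polynomial.eval_X,
      Polynomial.eval_C, Polynomial.eval_C, map_pow]

/-- Consequence of (K): `θ_g = g(q^ℓ)` is a root of the characteristic polynomial. -/
theorem kcg_root (hfin : FiniteAlong Qb (heckeAlphaBar Qb N ℓ))
    (g : ↥(modularFunctionFieldBar N)) :
    (charpolyAlong (heckeAlphaBar Qb N ℓ) hfin (heckeBetaBar Qb N ℓ g)).eval₂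
      ((heckeAlphaBar Qb N ℓ : ↥(modularFunctionFieldBar N) →+*
        ↥(modularFunctionFieldBar (N * ℓ)))) (heckeBetaBar Qb N ℓ g) = 0 :=
  aeval_charpolyAlong (heckeAlphaBar Qb N ℓ) hfin _

end KC

end Fermat.Agent.BadRed
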