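/-
G sprint (S36), SEED-UP, seat UP-KC, part (K') (helper50; owner of UP-KC: helper98).

**(K')** the coefficients of the characteristic polynomial `C_y = charpolyAlong α y` of a function
`y` of level `N ℓ` over `F_N` have poles only at the cusps (= poles of `j`), as soon as `y` has
poles only at the cusps of level `N ℓ` (= poles of `α j`).  The same for `w y`, `w = wAt D hM` the
Atkin–Lehner involution at `ℓ` (which permutes the cusps).

* `kclqp_charpoly_coeff`      : the coefficients of `charpolyAlong α hfin y`;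
* `kclqp_coeff_of_map`        : the coefficients of any `P` over a subring mapping to `C_y`
                                (the `P` of `KroneckerCharpolyLQ`);
* `kclqp_ord_wAt`             : `w y` has poles only at the cusps if `y` has;
* `kclqp_charpoly_coeff_wAt`  : the coefficients of `charpolyAlong α hfin (w y)`.
-/
import Mathlib
import Fermat.Agent.Lib.BadRed.KroneckerCharpolyLQ
import Fermat.Agent.S36.HPVal.KCtPole
import Fermat.Agent.S36.HPVal.Deg

set_option autoImplicit false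
set_option linter.style.haveILetI false
set_option linter.unusedSectionVars false
set_option linter.unusedVariables false
set_option synthInstance.maxHeartbeats 400000

noncomputable section

namespace Fermat.Agent.S36

open ModularCurve AlgebraicCurve Polynomial Fermat.Agent.BadRed Fermat.Agent.AtkinLehner
  Fermat.Agent.HPVal Fermat.Agent.F3G Fermat.Agent.S36G

local notation "Qb" => AlgebraicClosure ℚ

variable (N ℓ : ℕ) [NeZero N] [NeZero ℓ]

/-- **(K')** the coefficients of the characteristic polynomial over `F_N` (along `α`) of a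
function `y` of level `N ℓ` with poles only at the poles of `α j` have poles only at the poles of
`j`. -/
theorem kclqp_charpoly_coeff (hfin : FiniteAlong Qb (heckeAlphaBar Qb N ℓ))
    (y : ↥(modularFunctionFieldBar (N * ℓ)))
    (hy : ∀ w : Place Qb ↥(modularFunctionFieldBar (N * ℓ)),
      0 ≤ w.ord (heckeAlphaBar Qb N ℓ (Fermat.Agent.S24.jBar N)) → 0 ≤ w.ord y)
    (Q : Place Qb ↥(modularFunctionFieldBar N)) (hQ : 0 ≤ Q.ord (Fermat.Agent.S24.jBar N))
    (i : ℕ) :
    0 ≤ Q.ord ((charpolyAlong (heckeAlphaBar Qb N ℓ) hfin y).coeff i) := by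
  have hα := kcp_isIntegral (heckeAlphaBar Qb N ℓ)
  haveI : HasPrincipalDivisors Qb ↥(modularFunctionFieldBar (N * ℓ)) :=
    kcp_hasPrincipalDivisors (N * ℓ)
  have H : NormFormulaAlong Qb (heckeAlphaBar Qb N ℓ) hfin :=
    Fermat.Agent.HeckeInputs.hi_normFormulaAlong (heckeAlphaBar Qb N ℓ) hfin
      (Fermat.Agent.S24.isFunctionFieldOver_jBar N)
      (Fermat.Agent.S24.isFunctionFieldOver_jBar (N * ℓ))
  refine cpole_charpoly_coeff (heckeAlphaBar Qb N ℓ) hα hfin H Q _ (fun w hw => ?_) i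
  refine hy w ?_
  rw [← cpole_ord_restrictAlong_nonneg_iff (heckeAlphaBar Qb N ℓ) hα, hw]
  exact hQ

/-- the same for any polynomial `P` over a subring of `F_N` which maps to the characteristic
polynomial (e.g. the `P` of `KroneckerCharpolyLQ`, over the Gauss ring). -/
theorem kclqp_coeff_of_map (hfin : FiniteAlong Qb (heckeAlphaBar Qb N ℓ))
    (y : ↥(modularFunctionFieldBar (N * ℓ)))
    (hy : ∀ w : Place Qb ↥(modularFunctionFieldBar (N * ℓ)),
      0 ≤ w.ord (heckeAlphaBar Qb N ℓ (Fermat.Agent.S24.jBar N)) → 0 ≤ w.ord y)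
    (B : Subring ↥(modularFunctionFieldBar N)) (P : (↥B)[X])
    (hP : P.map B.subtype = charpolyAlong (heckeAlphaBar Qb N ℓ) hfin y)
    (Q : Place Qb ↥(modularFunctionFieldBar N)) (hQ : 0 ≤ Q.ord (Fermat.Agent.S24.jBar N))
    (i : ℕ) :
    0 ≤ Q.ord ((P.coeff i : ↥(modularFunctionFieldBar N))) := by
  have h := kclqp_charpoly_coeff N ℓ hfin y hy Q hQ i
  rw [← hP, Polynomial.coeff_map] at h
  exact h

/-- **the Atkin–Lehner involution at `ℓ` permutes the cusps**: `w y` has poles only at the poles of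
`α j` if `y` has. -/
theorem kclqp_ord_wAt (hℓ : ℓ.Prime) (hℓN : ¬ ℓ ∣ N) (D : ALData) (hQ : D.Q = ℓ) (hR : D.R = N)
    (hM : N * ℓ = D.Q * D.R) (y : ↥(modularFunctionFieldBar (N * ℓ)))
    (hy : ∀ w : Place Qb ↥(modularFunctionFieldBar (N * ℓ)),
      0 ≤ w.ord (heckeAlphaBar Qb N ℓ (Fermat.Agent.S24.jBar N)) → 0 ≤ w.ord y)
    (w : Place Qb ↥(modularFunctionFieldBar (N * ℓ)))
    (hw : 0 ≤ w.ord (heckeAlphaBar Qb N ℓ (Fermat.Agent.S24.jBar N))) :
    0 ≤ w.ord (wAt D hM y) := by
  set g : SemilinearAut Qb ↥(modularFunctionFieldBar (N * ℓ)) :=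
    SemilinearAut.ofAlgAut (wAt D hM) with hg
  have key : ∀ f : ↥(modularFunctionFieldBar (N * ℓ)), w.ord (wAt D hM f) = (g⁻¹ • w).ord f := by
    intro f
    have h := SemilinearAut.ord_smul g (g⁻¹ • w) f
    rw [smul_inv_smul] at h
    rw [← h]
    rfl
  rw [key]
  apply hy
  rw [← key, wpd_wAt_alpha D hQ hR hM]
  exact kcp_ord_beta_jBar N ℓ hℓ hℓN w hw

/-- **(K')** for `w y`: the coefficients of the characteristic polynomial of `w y` have poles only
at the poles of `j`. -/
theorem kclqp_charpoly_coeff_wAt (hℓ : ℓ.Prime) (hℓN : ¬ ℓ ∣ N)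
    (hfin : FiniteAlong Qb (heckeAlphaBar Qb N ℓ)) (D : ALData) (hQ : D.Q = ℓ) (hR : D.R = N)
    (hM : N * ℓ = D.Q * D.R) (y : ↥(modularFunctionFieldBar (N * ℓ)))
    (hy : ∀ w : Place Qb ↥(modularFunctionFieldBar (N * ℓ)),
      0 ≤ w.ord (heckeAlphaBar Qb N ℓ (Fermat.Agent.S24.jBar N)) → 0 ≤ w.ord y)
    (Q : Place Qb ↥(modularFunctionFieldBar N)) (hQj : 0 ≤ Q.ord (Fermat.Agent.S24.jBar N))
    (i : ℕ) :
    0 ≤ Q.ord ((charpolyAlong (heckeAlphaBar Qb N ℓ) hfin (wAt D hM y)).coeff i) :=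
  kclqp_charpoly_coeff N ℓ hfin (wAt D hM y)
    (fun w hw => kclqp_ord_wAt N ℓ hℓ hℓN D hQ hR hM y hy w hw) Q hQj i

end Fermat.Agent.S36
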